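/-
S48 (W) seat A5, part GRP / HECKE (helper83): the operators `T_p` and `⟨d⟩` on
`Hom(Γ₁(M), A)` and on the lattice `Hom_par(Γ₁(M), ℤ)`.
Port of `F3/EigenChar/Defs.lean` from `Γ₀(N)` to `Γ₁(M)`, on top of `Coset.lean` (helper67).

* `heckeAllOne hpM A`   : `(T_p c)(γ) = ∑_x c(γ_x)`, `γ_x = cosetOne hpM γ x`;
* `diamondAllOne M d A` : `(⟨d⟩ c)(γ) = c(σ_d γ σ_d⁻¹)`, independent of `σ_d`;
* `heckeHomOne M p`, `diamondHomOne M d` : the induced endomorphisms of `HomParOne M`.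
-/
import Mathlib
import Fermat.Agent.F3.EigenChar.Defs
import Fermat.Agent.S48.W.A5.Coset

set_option autoImplicit false

noncomputable section

namespace Fermat.Agent.S48WA5

open CongruenceSubgroup Matrix.SpecialLinearGroup ModularCurve.Period
open scoped MatrixGroups TensorProduct
open P2MW.S_ModularForm_heckeT_slash_eq_self_of_mem_Gamma0.ModularForm.HeckeSlashInvariance
open Fermat.Agent.F3EC (redMatrix_mul redMatrix_one redMatrix_pow trace_pow_sq_eq_four)

/-! ### the coset elements: uniqueness and multiplicativity -/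

section CosetOne

variable {M : ℕ} [NeZero M] {p : ℕ} [Fact p.Prime]

theorem cosetOne_unique (hpM : Nat.Coprime p M) (γ γ' : Gamma1 M) (x : OnePoint (ZMod p))
    (h : heckeRepOne M hpM x * mapGL ℝ (γ : SL(2, ℤ)) =
      mapGL ℝ (γ' : SL(2, ℤ)) * heckeRepOne M hpM (redMatrix p (γ : SL(2, ℤ)) • x)) :
    γ' = cosetOne hpM γ x := by
  have h2 := cosetOne_spec hpM γ x
  rw [h] at h2
  have h3 := mul_right_cancel h2
  exact Subtype.ext (mapGL_injective h3)

theorem cosetOne_mul (hpM : Nat.Coprime p M) (γ δ : Gamma1 M) (x : OnePoint (ZMod p)) :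
    cosetOne hpM (γ * δ) x =
      cosetOne hpM γ x * cosetOne hpM δ (redMatrix p (γ : SL(2, ℤ)) • x) := by
  symm
  apply cosetOne_unique
  have h1 := cosetOne_spec hpM γ x
  have h2 := cosetOne_spec hpM δ (redMatrix p (γ : SL(2, ℤ)) • x)
  rw [Subgroup.coe_mul, map_mul, ← mul_assoc, h1, mul_assoc, h2, Subgroup.coe_mul, map_mul,
    redMatrix_mul, mul_smul, mul_assoc]

theorem cosetOne_one (hpM : Nat.Coprime p M) (x : OnePoint (ZMod p)) :
    cosetOne hpM (1 : Gamma1 M) x = 1 := by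
  symm
  apply cosetOne_unique
  simp [redMatrix_one]

theorem trace_cosetOne_of_fixed (hpM : Nat.Coprime p M) (γ : Gamma1 M) (x : OnePoint (ZMod p))
    (hx : redMatrix p (γ : SL(2, ℤ)) • x = x) :
    (((cosetOne hpM γ x : Gamma1 M) : SL(2, ℤ)) : Matrix (Fin 2) (Fin 2) ℤ).trace =
      ((γ : SL(2, ℤ)) : Matrix (Fin 2) (Fin 2) ℤ).trace := by
  have h := cosetOne_spec hpM γ x
  rw [hx] at h
  have h2 : mapGL ℝ ((cosetOne hpM γ x : Gamma1 M) : SL(2, ℤ)) =
      heckeRepOne M hpM x * mapGL ℝ (γ : SL(2, ℤ)) * (heckeRepOne M hpM x)⁻¹ := by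
    rw [h, mul_inv_cancel_right]
  have h3 := congrArg (fun g : GL (Fin 2) ℝ => (g : Matrix (Fin 2) (Fin 2) ℝ).trace) h2
  simp only [Units.val_mul] at h3
  rw [Matrix.trace_units_conj] at h3
  simp only [mapGL_coe_matrix] at h3
  have h4 : ∀ g : SL(2, ℤ),
      ((Matrix.SpecialLinearGroup.map (algebraMap ℤ ℝ) g : SL(2, ℝ)) :
        Matrix (Fin 2) (Fin 2) ℝ).trace = (((g : Matrix (Fin 2) (Fin 2) ℤ).trace : ℤ) : ℝ) := by
    intro g
    simp [Matrix.trace_fin_two]
  rw [h4, h4] at h3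
  exact_mod_cast h3

theorem sum_range_cosetOne_pow (hpM : Nat.Coprime p M) {A : Type*} [AddCommGroup A]
    (c : Additive (Gamma1 M) →+ A) (γ : Gamma1 M) (x : OnePoint (ZMod p)) (n : ℕ) :
    c (Additive.ofMul (cosetOne hpM (γ ^ n) x)) =
      ∑ i ∈ Finset.range n,
        c (Additive.ofMul (cosetOne hpM γ ((redMatrix p (γ : SL(2, ℤ)) ^ i) • x))) := by
  induction n with
  | zero =>
    rw [pow_zero, cosetOne_one]
    simp
  | succ n ih =>
    rw [pow_succ, cosetOne_mul, ofMul_mul, map_add, ih, Finset.sum_range_succ]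
    simp [redMatrix_pow]

end CosetOne

/-! ### `T_p` on `Hom(Γ₁(M), A)` -/

section HeckeAll

variable {M : ℕ} [NeZero M] {p : ℕ} [Fact p.Prime] {A : Type*} [AddCommGroup A]

/-- `(T_p c)(γ) = ∑_x c(γ_x)` as a function. -/
def heckeCochOne (hpM : Nat.Coprime p M) (c : Additive (Gamma1 M) →+ A) (γ : Gamma1 M) : A :=
  ∑ x : OnePoint (ZMod p), c (Additive.ofMul (cosetOne hpM γ x))

theorem heckeCochOne_mul (hpM : Nat.Coprime p M) (c : Additive (Gamma1 M) →+ A)
    (γ δ : Gamma1 M) :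
    heckeCochOne hpM c (γ * δ) = heckeCochOne hpM c γ + heckeCochOne hpM c δ := by
  unfold heckeCochOne
  have hperm : ∑ x : OnePoint (ZMod p),
      c (Additive.ofMul (cosetOne hpM δ (redMatrix p (γ : SL(2, ℤ)) • x))) =
      ∑ x : OnePoint (ZMod p), c (Additive.ofMul (cosetOne hpM δ x)) :=
    Equiv.sum_comp (MulAction.toPerm (redMatrix p (γ : SL(2, ℤ))))
      (fun x => c (Additive.ofMul (cosetOne hpM δ x)))
  rw [← hperm, ← Finset.sum_add_distrib]
  refine Finset.sum_congr rfl fun x _ => ?_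
  rw [cosetOne_mul, ofMul_mul, map_add]

theorem heckeCochOne_one (hpM : Nat.Coprime p M) (c : Additive (Gamma1 M) →+ A) :
    heckeCochOne hpM c 1 = 0 := by
  have h := heckeCochOne_mul hpM c 1 1
  rw [mul_one] at h
  simpa using h

/-- `(T_p c)(γ) = ∑_x c(γ_x)`. -/
def heckeAllOne (hpM : Nat.Coprime p M) (A : Type*) [AddCommGroup A] :
    (Additive (Gamma1 M) →+ A) →+ (Additive (Gamma1 M) →+ A) where
  toFun c :=
    { toFun := fun γ => heckeCochOne hpM c (Additive.toMul γ)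
      map_zero' := heckeCochOne_one hpM c
      map_add' := fun γ δ => heckeCochOne_mul hpM c (Additive.toMul γ) (Additive.toMul δ) }
  map_zero' := by
    ext γ
    simp [heckeCochOne]
  map_add' c d := by
    ext γ
    simp [heckeCochOne, Finset.sum_add_distrib]

theorem heckeAllOne_apply (hpM : Nat.Coprime p M) {A : Type*} [AddCommGroup A]
    (c : Additive (Gamma1 M) →+ A) (γ : Gamma1 M) :
    heckeAllOne hpM A c (Additive.ofMul γ) =
      ∑ x : OnePoint (ZMod p), c (Additive.ofMul (cosetOne hpM γ x)) := rfl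

/-- `T_p` preserves parabolic homomorphisms (values in a torsion-free group). -/
theorem heckeAllOne_parabolic (hpM : Nat.Coprime p M) {A : Type*} [AddCommGroup A]
    [IsAddTorsionFree A] {c : Additive (Gamma1 M) →+ A} (hc : IsParabolicHom (Gamma1 M) c) :
    IsParabolicHom (Gamma1 M) (heckeAllOne hpM A c) := by
  intro γ hγ
  have : NeZero p := ⟨(Fact.out : p.Prime).ne_zero⟩
  set π : GL (Fin 2) (ZMod p) := redMatrix p (γ : SL(2, ℤ)) with hπ
  set n : ℕ := orderOf π with hn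
  have hnpos : 0 < n := orderOf_pos π
  have hzero : ∀ x : OnePoint (ZMod p), c (Additive.ofMul (cosetOne hpM (γ ^ n) x)) = 0 := by
    intro x
    apply hc
    have hfix : redMatrix p ((γ ^ n : Gamma1 M) : SL(2, ℤ)) • x = x := by
      rw [SubmonoidClass.coe_pow, redMatrix_pow, ← hπ, hn, pow_orderOf_eq_one, one_smul]
    rw [trace_cosetOne_of_fixed hpM (γ ^ n) x hfix, SubmonoidClass.coe_pow]
    exact trace_pow_sq_eq_four _ hγ n
  have hsum : ∑ x : OnePoint (ZMod p), ∑ i ∈ Finset.range n,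
      c (Additive.ofMul (cosetOne hpM γ ((π ^ i) • x))) = 0 := by
    refine Finset.sum_eq_zero fun x _ => ?_
    rw [← sum_range_cosetOne_pow hpM c γ x n]
    exact hzero x
  rw [Finset.sum_comm] at hsum
  have hperm : ∀ i ∈ Finset.range n,
      ∑ x : OnePoint (ZMod p), c (Additive.ofMul (cosetOne hpM γ ((π ^ i) • x))) =
        ∑ x : OnePoint (ZMod p), c (Additive.ofMul (cosetOne hpM γ x)) := fun i _ =>
    Equiv.sum_comp (MulAction.toPerm (π ^ i))
      (fun x => c (Additive.ofMul (cosetOne hpM γ x)))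
  rw [Finset.sum_congr rfl hperm, Finset.sum_const, Finset.card_range] at hsum
  rw [heckeAllOne_apply]
  have h0 : n • (∑ x : OnePoint (ZMod p), c (Additive.ofMul (cosetOne hpM γ x)))
      = n • (0 : A) := by
    rw [hsum, smul_zero]
  exact IsAddTorsionFree.nsmul_right_injective hnpos.ne' h0

theorem heckeAllOne_smul_hom {R : Type*} [Ring R] {B : Type*} [AddCommGroup B] [Module R B]
    (hpM : Nat.Coprime p M) (z : R) (c : Additive (Gamma1 M) →+ B) :
    heckeAllOne hpM B (z • c) = z • heckeAllOne hpM B c := by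
  refine AddMonoidHom.ext fun γ => ?_
  obtain ⟨γ, rfl⟩ := Additive.ofMul.surjective γ
  simp [heckeAllOne_apply, Finset.smul_sum]

end HeckeAll

/-! ### the diamond operators on `Hom(Γ₁(M), A)` -/

section Diamond

variable {M : ℕ}

theorem coe_conjOne_h (σ : Gamma0 M) (γ : Gamma1 M) :
    ((conjOne σ γ : Gamma1 M) : SL(2, ℤ)) = (σ : SL(2, ℤ)) * (γ : SL(2, ℤ)) * (σ : SL(2, ℤ))⁻¹ :=
  rfl

theorem conjOne_mul_h (σ : Gamma0 M) (γ δ : Gamma1 M) :
    conjOne σ (γ * δ) = conjOne σ γ * conjOne σ δ := by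
  apply Subtype.ext
  rw [Subgroup.coe_mul, coe_conjOne_h, coe_conjOne_h, coe_conjOne_h, Subgroup.coe_mul]
  group

theorem conjOne_one_h (σ : Gamma0 M) : conjOne σ (1 : Gamma1 M) = 1 := by
  apply Subtype.ext
  rw [coe_conjOne_h]
  simp

theorem trace_conjOne_h (σ : Gamma0 M) (γ : Gamma1 M) :
    (((conjOne σ γ : Gamma1 M) : SL(2, ℤ)) : Matrix (Fin 2) (Fin 2) ℤ).trace =
      ((γ : SL(2, ℤ)) : Matrix (Fin 2) (Fin 2) ℤ).trace := by
  rw [coe_conjOne_h, Matrix.SpecialLinearGroup.coe_mul, Matrix.trace_mul_comm,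
    ← Matrix.SpecialLinearGroup.coe_mul, inv_mul_cancel_left]

/-- an element of `Γ₀(M)` with lower right entry `≡ 1` is in `Γ₁(M)`. -/
theorem mem_Gamma1_of_map_eq_one (τ : Gamma0 M) (hτ : Gamma0Map M τ = 1) :
    (τ : SL(2, ℤ)) ∈ Gamma1 M := by
  have h1 : τ ∈ Gamma1' M := Gamma1_mem'.mpr hτ
  rw [Gamma1_to_Gamma0_mem] at h1
  rw [Gamma1_mem]
  exact h1

/-- conjugation by `σ` on `Hom(Γ₁(M), A)`. -/
def conjHomOne (σ : Gamma0 M) (A : Type*) [AddCommGroup A] :
    (Additive (Gamma1 M) →+ A) →+ (Additive (Gamma1 M) →+ A) where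
  toFun c :=
    { toFun := fun γ => c (Additive.ofMul (conjOne σ (Additive.toMul γ)))
      map_zero' := by
        show c (Additive.ofMul (conjOne σ 1)) = 0
        rw [conjOne_one_h]
        simp
      map_add' := fun γ δ => by
        show c (Additive.ofMul (conjOne σ (Additive.toMul γ * Additive.toMul δ))) = _
        rw [conjOne_mul_h, ofMul_mul, map_add] }
  map_zero' := by
    ext γ
    rfl
  map_add' c d := by
    ext γ
    rfl

theorem conjHomOne_apply (σ : Gamma0 M) {A : Type*} [AddCommGroup A]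
    (c : Additive (Gamma1 M) →+ A) (γ : Gamma1 M) :
    conjHomOne σ A c (Additive.ofMul γ) = c (Additive.ofMul (conjOne σ γ)) := rfl

/-- conjugation by elements with the same lower right entry agree on `Hom(Γ₁(M), A)`. -/
theorem conjOne_congr {A : Type*} [AddCommGroup A] (c : Additive (Gamma1 M) →+ A)
    (σ σ' : Gamma0 M) (h : Gamma0Map M σ = Gamma0Map M σ') (γ : Gamma1 M) :
    c (Additive.ofMul (conjOne σ γ)) = c (Additive.ofMul (conjOne σ' γ)) := by
  have hτ : Gamma0Map M (σ' * σ⁻¹) = 1 := by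
    rw [map_mul, ← h, ← map_mul, mul_inv_cancel, map_one]
  let t : Gamma1 M := ⟨((σ' * σ⁻¹ : Gamma0 M) : SL(2, ℤ)), mem_Gamma1_of_map_eq_one _ hτ⟩
  have hconj : conjOne σ' γ = t * conjOne σ γ * t⁻¹ := by
    apply Subtype.ext
    simp only [Subgroup.coe_mul, Subgroup.coe_inv, coe_conjOne_h, t]
    group
  rw [hconj, ofMul_mul, ofMul_mul, ofMul_inv, map_add, map_add, map_neg]
  abel

variable [NeZero M]

/-- `(⟨d⟩ c)(γ) = c(σ_d γ σ_d⁻¹)`. -/
def diamondAllOne (M : ℕ) [NeZero M] (d : (ZMod M)ˣ) (A : Type*) [AddCommGroup A] :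
    (Additive (Gamma1 M) →+ A) →+ (Additive (Gamma1 M) →+ A) :=
  conjHomOne (diaRep M d) A

theorem diamondAllOne_apply (d : (ZMod M)ˣ) {A : Type*} [AddCommGroup A]
    (c : Additive (Gamma1 M) →+ A) (γ : Gamma1 M) :
    diamondAllOne M d A c (Additive.ofMul γ) = c (Additive.ofMul (conjOne (diaRep M d) γ)) :=
  rfl

/-- independence of the representative: any `σ ∈ Γ₀(M)` with lower right entry `d` works. -/
theorem diamondAllOne_apply_of_map (d : (ZMod M)ˣ) {A : Type*} [AddCommGroup A]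
    (c : Additive (Gamma1 M) →+ A) (σ : Gamma0 M) (hσ : Gamma0Map M σ = (d : ZMod M))
    (γ : Gamma1 M) :
    diamondAllOne M d A c (Additive.ofMul γ) = c (Additive.ofMul (conjOne σ γ)) := by
  rw [diamondAllOne_apply]
  exact conjOne_congr c _ _ ((diaRep_spec M d).trans hσ.symm) γ

theorem diamondAllOne_parabolic (d : (ZMod M)ˣ) {A : Type*} [AddCommGroup A]
    {c : Additive (Gamma1 M) →+ A} (hc : IsParabolicHom (Gamma1 M) c) :
    IsParabolicHom (Gamma1 M) (diamondAllOne M d A c) := by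
  intro γ hγ
  rw [diamondAllOne_apply]
  apply hc
  rw [trace_conjOne_h]
  exact hγ

theorem diamondAllOne_smul_hom {R : Type*} [Ring R] {B : Type*} [AddCommGroup B] [Module R B]
    (d : (ZMod M)ˣ) (z : R) (c : Additive (Gamma1 M) →+ B) :
    diamondAllOne M d B (z • c) = z • diamondAllOne M d B c := by
  refine AddMonoidHom.ext fun γ => ?_
  obtain ⟨γ, rfl⟩ := Additive.ofMul.surjective γ
  simp [diamondAllOne_apply]

end Diamond

/-! ### the operators on the lattice -/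

section Lattice

variable {M : ℕ} [NeZero M]

/-- `T_p` on all of `Hom(Γ₁(M), ℤ)`, as a `ℤ`-linear map. -/
def heckeLinAllOne {p : ℕ} [Fact p.Prime] (hpM : Nat.Coprime p M) :
    (Additive (Gamma1 M) →+ ℤ) →ₗ[ℤ] (Additive (Gamma1 M) →+ ℤ) where
  toFun := heckeAllOne hpM ℤ
  map_add' := map_add _
  map_smul' m c := heckeAllOne_smul_hom hpM m c

/-- `⟨d⟩` on all of `Hom(Γ₁(M), ℤ)`, as a `ℤ`-linear map. -/
def diamondLinAllOne (d : (ZMod M)ˣ) :
    (Additive (Gamma1 M) →+ ℤ) →ₗ[ℤ] (Additive (Gamma1 M) →+ ℤ) where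
  toFun := diamondAllOne M d ℤ
  map_add' := map_add _
  map_smul' m c := diamondAllOne_smul_hom d m c

/-- `T_p` on `Hom_par(Γ₁(M), ℤ)` (zero if `p ∣ M`). -/
def heckeHomOne (M : ℕ) [NeZero M] (p : Nat.Primes) : HomParOne M →ₗ[ℤ] HomParOne M :=
  haveI : Fact (p : ℕ).Prime := ⟨p.2⟩
  if h : Nat.Coprime (p : ℕ) M then
    (heckeLinAllOne h).restrict (fun _ hc => heckeAllOne_parabolic h hc)
  else 0

theorem heckeHomOne_coe (p : Nat.Primes) (hpM : Nat.Coprime (p : ℕ) M) (c : HomParOne M) :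
    haveI : Fact (p : ℕ).Prime := ⟨p.2⟩
    ((heckeHomOne M p c : HomParOne M) : Additive (Gamma1 M) →+ ℤ) =
      heckeAllOne hpM ℤ (c : Additive (Gamma1 M) →+ ℤ) := by
  rw [heckeHomOne, dif_pos hpM]
  rfl

/-- `⟨d⟩` on `Hom_par(Γ₁(M), ℤ)`. -/
def diamondHomOne (M : ℕ) [NeZero M] (d : (ZMod M)ˣ) : HomParOne M →ₗ[ℤ] HomParOne M :=
  (diamondLinAllOne d).restrict (fun _ hc => diamondAllOne_parabolic d hc)

theorem diamondHomOne_coe (d : (ZMod M)ˣ) (c : HomParOne M) :
    ((diamondHomOne M d c : HomParOne M) : Additive (Gamma1 M) →+ ℤ) =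
      diamondAllOne M d ℤ (c : Additive (Gamma1 M) →+ ℤ) := rfl

end Lattice

end Fermat.Agent.S48WA5
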