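/-
S48 (W) seat A5, part GRP / LATTICE (helper83): the lattice `HomParOne M = Hom_par(Γ₁(M), ℤ)` is a
finite free `ℤ`-module, the comparison map `ℂ ⊗ HomParOne M → Hom(Γ₁(M), ℂ)` is injective with
image the parabolic homomorphisms, and it intertwines `T_p` and `⟨d⟩`.
Port of `F3/EigenChar/Lattice.lean` + `PeriodEigen.compMap_heckeHom` from `Γ₀(N)` to `Γ₁(M)`.
-/
import Mathlib
import Fermat.Agent.F3.EigenChar.Lattice
import Fermat.Agent.S48.W.A5.Hecke

set_option autoImplicit false

noncomputable section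

namespace Fermat.Agent.S48WA5

open CongruenceSubgroup ModularCurve.Period
open scoped MatrixGroups TensorProduct
open Fermat.Agent.F3EC (hom_eq_zero_of_closure evalOn evalOn_apply evalOn_injective)

variable {M : ℕ}

/-! ### `HomParOne M` is finite free over `ℤ` -/

/-- `Γ₁(M)` is a finitely generated group for `M ≥ 1` (Schreier's lemma). -/
theorem fg_Gamma1 (M : ℕ) [NeZero M] : Group.FG (Gamma1 M) := by
  have : Group.FG SL(2, ℤ) := Fermat.Agent.S22.fg_SL2Z
  exact Subgroup.fg_of_index_ne_zero (Gamma1 M)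

theorem exists_finite_generators_one (M : ℕ) [NeZero M] :
    ∃ S : Set (Gamma1 M), S.Finite ∧ Subgroup.closure S = ⊤ := by
  have h := fg_Gamma1 M
  rw [Group.fg_iff] at h
  obtain ⟨S, hS, hfin⟩ := h
  exact ⟨S, hfin, hS⟩

instance instFiniteHomAllOne (M : ℕ) [NeZero M] :
    Module.Finite ℤ (Additive (Gamma1 M) →+ ℤ) := by
  obtain ⟨S, hfin, hS⟩ := exists_finite_generators_one M
  have : Finite S := hfin
  exact Module.Finite.of_injective (evalOn ℤ ℤ S) (evalOn_injective ℤ ℤ hS)

instance instFiniteHomParOne (M : ℕ) [NeZero M] : Module.Finite ℤ (HomParOne M) :=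
  Module.Finite.of_injective (parabolicHoms ℤ (Gamma1 M) ℤ).subtype Subtype.val_injective

instance instTorsionFreeHomParOne (M : ℕ) : Module.IsTorsionFree ℤ (HomParOne M) :=
  Function.Injective.moduleIsTorsionFree (parabolicHoms ℤ (Gamma1 M) ℤ).subtype
    Subtype.val_injective (fun _ _ => rfl)

instance instFreeHomParOne (M : ℕ) [NeZero M] : Module.Free ℤ (HomParOne M) :=
  Module.free_of_finite_type_torsion_free'

/-! ### The comparison map `ℂ ⊗ HomParOne M → Hom(Γ₁(M), ℂ)` -/

/-- Coefficient change `ℤ → ℂ` on homomorphisms. -/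
def castHomOne (M : ℕ) : (Additive (Gamma1 M) →+ ℤ) →ₗ[ℤ] (Additive (Gamma1 M) →+ ℂ) where
  toFun c := (Int.castAddHom ℂ).comp c
  map_add' c d := by
    refine AddMonoidHom.ext fun γ => ?_
    simp
  map_smul' m c := by
    refine AddMonoidHom.ext fun γ => ?_
    simp

@[simp] theorem castHomOne_apply (c : Additive (Gamma1 M) →+ ℤ) (γ : Additive (Gamma1 M)) :
    castHomOne M c γ = ((c γ : ℤ) : ℂ) := rfl

/-- The inclusion `HomParOne M → Hom(Γ₁(M), ℂ)`. -/
def homParCastOne (M : ℕ) : HomParOne M →ₗ[ℤ] (Additive (Gamma1 M) →+ ℂ) :=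
  (castHomOne M).comp (parabolicHoms ℤ (Gamma1 M) ℤ).subtype

@[simp] theorem homParCastOne_apply (c : HomParOne M) (γ : Additive (Gamma1 M)) :
    homParCastOne M c γ = (((c : Additive (Gamma1 M) →+ ℤ) γ : ℤ) : ℂ) := rfl

/-- `Ψ : ℂ ⊗ Hom_par(Γ₁(M), ℤ) → Hom(Γ₁(M), ℂ)`, `z ⊗ c ↦ z • c`. -/
def compMapOne (M : ℕ) : ℂ ⊗[ℤ] HomParOne M →ₗ[ℂ] (Additive (Gamma1 M) →+ ℂ) :=
  (homParCastOne M).liftBaseChange ℂ

theorem compMapOne_tmul (z : ℂ) (c : HomParOne M) (γ : Additive (Gamma1 M)) :
    compMapOne M (z ⊗ₜ[ℤ] c) γ = z * (((c : Additive (Gamma1 M) →+ ℤ) γ : ℤ) : ℂ) := by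
  simp [compMapOne, LinearMap.liftBaseChange_tmul]

theorem compMapOne_tmul_eq (z : ℂ) (c : HomParOne M) :
    compMapOne M (z ⊗ₜ[ℤ] c) = z • homParCastOne M c := by
  simp [compMapOne, LinearMap.liftBaseChange_tmul]

theorem compMapOne_injective (M : ℕ) [NeZero M] : Function.Injective (compMapOne M) := by
  classical
  obtain ⟨S, hfin, hS⟩ := exists_finite_generators_one M
  have : Fintype S := hfin.fintype
  set evZ : HomParOne M →ₗ[ℤ] (S → ℤ) :=
    (evalOn ℤ ℤ S).comp (parabolicHoms ℤ (Gamma1 M) ℤ).subtype with hevZ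
  have hevZ_inj : Function.Injective evZ :=
    (evalOn_injective ℤ ℤ hS).comp Subtype.val_injective
  have hL : Function.Injective (LinearMap.lTensor ℂ evZ) :=
    Module.Flat.lTensor_preserves_injective_linearMap evZ hevZ_inj
  have key : ∀ t : ℂ ⊗[ℤ] HomParOne M,
      TensorProduct.piScalarRight ℤ ℂ ℂ S (LinearMap.lTensor ℂ evZ t) =
        evalOn ℂ ℂ S (compMapOne M t) := by
    intro t
    induction t using TensorProduct.induction_on with
    | zero => simp
    | tmul z c =>
      funext s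
      simp [hevZ, mul_comm, compMapOne_tmul]
    | add x y hx hy => simp only [map_add, hx, hy]
  rw [injective_iff_map_eq_zero]
  intro t ht
  have h1 := key t
  rw [ht, map_zero] at h1
  have h2 : LinearMap.lTensor ℂ evZ t = 0 :=
    (TensorProduct.piScalarRight ℤ ℂ ℂ S).injective (by rw [h1, map_zero])
  exact hL (by rw [h2, map_zero])

/-- Every parabolic homomorphism `Γ₁(M) → ℂ` is a `ℂ`-linear combination of `ℤ`-valued
parabolic homomorphisms. -/
theorem mem_range_compMapOne (M : ℕ) [NeZero M] {c : Additive (Gamma1 M) →+ ℂ}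
    (hc : IsParabolicHom (Gamma1 M) c) : c ∈ LinearMap.range (compMapOne M) := by
  classical
  obtain ⟨S, hfin, hS⟩ := exists_finite_generators_one M
  -- the finitely generated subgroup of `ℂ` containing all values of `c`
  set B : Submodule ℤ ℂ := Submodule.span ℤ ((fun s : Gamma1 M => c (Additive.ofMul s)) '' S)
    with hB
  have hBfg : B.FG := Submodule.fg_span (hfin.image _)
  have hmem : ∀ γ : Additive (Gamma1 M), c γ ∈ B := by
    let K : Subgroup (Gamma1 M) :=
      { carrier := {γ | c (Additive.ofMul γ) ∈ B}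
        one_mem' := by simp
        mul_mem' := by
          intro a b ha hb
          simp only [Set.mem_ofPred_eq] at ha hb ⊢
          rw [ofMul_mul, map_add]
          exact B.add_mem ha hb
        inv_mem' := by
          intro a ha
          simp only [Set.mem_ofPred_eq] at ha ⊢
          rw [ofMul_inv, map_neg]
          exact B.neg_mem ha }
    have hK : K = ⊤ := by
      rw [eq_top_iff, ← hS, Subgroup.closure_le]
      intro s hs
      exact Submodule.subset_span ⟨s, hs, rfl⟩
    intro γ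
    have : Additive.toMul γ ∈ K := by rw [hK]; exact Subgroup.mem_top _
    exact this
  have : Module.Finite ℤ B := Module.Finite.of_fg hBfg
  have : Module.IsTorsionFree ℤ B :=
    Function.Injective.moduleIsTorsionFree B.subtype Subtype.val_injective (fun _ _ => rfl)
  have : Module.Free ℤ B := Module.free_of_finite_type_torsion_free'
  let e := Module.Free.chooseBasis ℤ B
  have : Fintype (Module.Free.ChooseBasisIndex ℤ B) := Module.Free.ChooseBasisIndex.fintype ℤ B
  -- corestriction of `c` to `B`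
  let c' : Additive (Gamma1 M) →+ B :=
    { toFun := fun γ => ⟨c γ, hmem γ⟩
      map_zero' := by ext; simp
      map_add' := fun a b => by ext; simp }
  -- coordinates
  let coord : Module.Free.ChooseBasisIndex ℤ B → (Additive (Gamma1 M) →+ ℤ) := fun k =>
    ((Finsupp.lapply k ∘ₗ e.repr.toLinearMap : B →ₗ[ℤ] ℤ).toAddMonoidHom).comp c'
  have hcoord : ∀ k γ, coord k γ = e.repr (c' γ) k := fun k γ => rfl
  have hpar : ∀ k, coord k ∈ parabolicHoms ℤ (Gamma1 M) ℤ := by
    intro k γ hγ
    have h0 : c' (Additive.ofMul γ) = 0 := by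
      ext
      exact hc γ hγ
    rw [hcoord, h0]
    simp
  refine ⟨∑ k, ((e k : B) : ℂ) ⊗ₜ[ℤ] (⟨coord k, hpar k⟩ : HomParOne M), ?_⟩
  refine AddMonoidHom.ext fun γ => ?_
  rw [map_sum, AddMonoidHom.finsetSum_apply]
  have hrepr := e.sum_repr (c' γ)
  have h2 : ∑ k, (e.repr (c' γ) k) • ((e k : B) : ℂ) = c γ := by
    have h3 : ((∑ k, e.repr (c' γ) k • e k : B) : ℂ) = ((c' γ : B) : ℂ) :=
      congrArg (fun x : B => (x : ℂ)) hrepr
    rw [Submodule.coe_sum] at h3
    simp only [Submodule.coe_smul] at h3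
    exact h3
  rw [← h2]
  refine Finset.sum_congr rfl fun k _ => ?_
  rw [compMapOne_tmul, hcoord, zsmul_eq_mul, mul_comm]

/-! ### the comparison map intertwines the operators -/

variable [NeZero M]

theorem heckeAllOne_castHomOne {p : ℕ} [Fact p.Prime] (hpM : Nat.Coprime p M)
    (c : Additive (Gamma1 M) →+ ℤ) :
    heckeAllOne hpM ℂ (castHomOne M c) = castHomOne M (heckeAllOne hpM ℤ c) := by
  refine AddMonoidHom.ext fun γ => ?_
  obtain ⟨γ, rfl⟩ := Additive.ofMul.surjective γ
  simp [heckeAllOne_apply]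

theorem diamondAllOne_castHomOne (d : (ZMod M)ˣ) (c : Additive (Gamma1 M) →+ ℤ) :
    diamondAllOne M d ℂ (castHomOne M c) = castHomOne M (diamondAllOne M d ℤ c) := by
  refine AddMonoidHom.ext fun γ => ?_
  obtain ⟨γ, rfl⟩ := Additive.ofMul.surjective γ
  simp [diamondAllOne_apply]

theorem compMapOne_heckeHomOne (p : Nat.Primes) (hpM : Nat.Coprime (p : ℕ) M)
    (t : ℂ ⊗[ℤ] HomParOne M) :
    haveI : Fact (p : ℕ).Prime := ⟨p.2⟩
    compMapOne M ((heckeHomOne M p).baseChange ℂ t) = heckeAllOne hpM ℂ (compMapOne M t) := by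
  have : Fact (p : ℕ).Prime := ⟨p.2⟩
  induction t using TensorProduct.induction_on with
  | zero => simp
  | tmul z c =>
    rw [LinearMap.baseChange_tmul, compMapOne_tmul_eq, compMapOne_tmul_eq, heckeAllOne_smul_hom]
    have h : homParCastOne M (heckeHomOne M p c)
        = heckeAllOne hpM ℂ (homParCastOne M c) := by
      show castHomOne M ((heckeHomOne M p c : HomParOne M) : Additive (Gamma1 M) →+ ℤ) =
        heckeAllOne hpM ℂ (castHomOne M (c : Additive (Gamma1 M) →+ ℤ))
      rw [heckeHomOne_coe p hpM, heckeAllOne_castHomOne]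
    rw [h]
  | add x y hx hy => simp only [map_add, hx, hy]

theorem compMapOne_diamondHomOne (d : (ZMod M)ˣ) (t : ℂ ⊗[ℤ] HomParOne M) :
    compMapOne M ((diamondHomOne M d).baseChange ℂ t) = diamondAllOne M d ℂ (compMapOne M t) := by
  induction t using TensorProduct.induction_on with
  | zero => simp
  | tmul z c =>
    rw [LinearMap.baseChange_tmul, compMapOne_tmul_eq, compMapOne_tmul_eq,
      diamondAllOne_smul_hom]
    have h : homParCastOne M (diamondHomOne M d c)
        = diamondAllOne M d ℂ (homParCastOne M c) := by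
      show castHomOne M ((diamondHomOne M d c : HomParOne M) : Additive (Gamma1 M) →+ ℤ) =
        diamondAllOne M d ℂ (castHomOne M (c : Additive (Gamma1 M) →+ ℤ))
      rw [diamondHomOne_coe d, diamondAllOne_castHomOne]
    rw [h]
  | add x y hx hy => simp only [map_add, hx, hy]

end Fermat.Agent.S48WA5
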