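/-
S48 (W) seat A5, part PER (helper63): primitives and periods at `Γ₁(M)`, function level.

Port of helper21's S21/{Primitive,Parabolic,Injective}.lean from `CuspForm (Gamma0 N) 2` to the
function level at `Γ₁(M)` (statements: helper21's stub).

* `PrimOne M h F` : `F` is a primitive of `h` with constant periods along `Γ₁(M)` and limits at
  all cusps;
* `exists_primOne` (P1), `PrimOne.isParabolicHom` (P2), `PrimOne.eq_zero_of_periodHom_eq_zero` (P3),
  `PrimOne.periodHom_eq` (P4), `PrimOne.add / smul / primOne_zero` (P5), `PrimOne.mdiff` (P6).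
-/
import Mathlib
import Fermat.Agent.S21.Injective
import Fermat.Agent.S21.ReInvariant

set_option autoImplicit false

noncomputable section

namespace Fermat.Agent.S48WA5

open CongruenceSubgroup Matrix.SpecialLinearGroup ModularCurve.Period UpperHalfPlane Filter
open scoped MatrixGroups Topology Manifold ModularForm Pointwise

/-- `F` is a primitive of `h` with constant periods along `Γ₁(M)` and limits at all cusps. -/
structure PrimOne (M : ℕ) (h F : ℍ → ℂ) : Prop where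
  deriv : ∀ τ : ℍ, HasDerivAt (F ∘ ofComplex) (h τ) τ
  equiv : IsEquivariantPrimitive (Gamma1 M) F
  cusp : ∀ δ : SL(2, ℤ), ∃ L : ℂ, Tendsto (fun w : ℍ => F (δ • w)) atImInfty (𝓝 L)

/-- `Γ(M) ≤ Γ₁(M)`. -/
theorem per_Gamma_le_Gamma1 (M : ℕ) : Gamma M ≤ Gamma1 M := by
  intro γ hγ
  rw [Gamma_mem] at hγ
  rw [Gamma1_mem]
  exact ⟨hγ.1, hγ.2.2.2, hγ.2.2.1⟩

/-- The translate `f ∣[2] δ` of a cusp form on `Γ₁(M)` by `δ ∈ SL(2, ℤ)` is holomorphic, periodic
and zero at `i∞`. -/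
theorem per_translate_data (M : ℕ) [NeZero M] (f : CuspForm (Gamma1 M) 2) (δ : SL(2, ℤ)) :
    ∃ h : ℝ, 0 < h ∧ MDiff ((f : ℍ → ℂ) ∣[(2 : ℤ)] δ) ∧
      Function.Periodic (((f : ℍ → ℂ) ∣[(2 : ℤ)] δ) ∘ ofComplex) h ∧
      IsZeroAtImInfty ((f : ℍ → ℂ) ∣[(2 : ℤ)] δ) := by
  obtain ⟨m, hm, hper⟩ := Subgroup.IsArithmetic.exists_nat_mem_strictPeriods_conj
    ((Gamma1 M : Subgroup SL(2, ℤ)) : Subgroup (GL (Fin 2) ℝ))
  have hmpos : (0 : ℝ) < m := by exact_mod_cast hm
  set g := CuspForm.translate f (Matrix.SpecialLinearGroup.mapGL ℝ δ) with hg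
  have hmem : (m : ℝ) ∈ (ConjAct.toConjAct (Matrix.SpecialLinearGroup.mapGL ℝ δ)⁻¹ •
      ((Gamma1 M : Subgroup SL(2, ℤ)) : Subgroup (GL (Fin 2) ℝ))).strictPeriods := by
    have := hper δ⁻¹
    simpa using this
  have hcoe : (g : ℍ → ℂ) = (f : ℍ → ℂ) ∣[(2 : ℤ)] δ := rfl
  refine ⟨m, hmpos, ?_, ?_, ?_⟩
  · rw [← hcoe]; exact g.holo'
  · rw [← hcoe]; exact SlashInvariantFormClass.periodic_comp_ofComplex g hmem
  · rw [← hcoe]
    have hcusp := Subgroup.isCusp_of_mem_strictPeriods hmpos hmem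
    exact OnePoint.isZeroAt_infty_iff.mp (g.zero_at_cusps' hcusp)

/-- slash invariance of a cusp form on `Γ₁(M)` under `γ ∈ Γ₁(M)` (as element of `SL(2, ℤ)`). -/
theorem per_slash_eq_self (M : ℕ) (f : CuspForm (Gamma1 M) 2) (γ : Gamma1 M) :
    (f : ℍ → ℂ) ∣[(2 : ℤ)] (γ : SL(2, ℤ)) = f := by
  rw [ModularForm.SL_slash]
  exact SlashInvariantForm.slash_action_eqn f _ ⟨γ, γ.2, rfl⟩

/-- (P1) every weight-2 cusp form on `Γ₁(M)` has such a primitive. -/
theorem exists_primOne (M : ℕ) [NeZero M] (g : CuspForm (Gamma1 M) 2) :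
    ∃ F : ℍ → ℂ, PrimOne M g F := by
  obtain ⟨h, hh, hhol, hper, hzero⟩ := per_translate_data M g 1
  have h1 : (g : ℍ → ℂ) ∣[(2 : ℤ)] (1 : SL(2, ℤ)) = g := SlashAction.slash_one _ _
  rw [h1] at hhol hper hzero
  obtain ⟨F, -, hFderiv, -, -⟩ := Period.exists_periodic_primitive hh hhol hper hzero
  refine ⟨F, hFderiv, ?_, ?_⟩
  · intro γ
    refine ⟨F ((γ : SL(2, ℤ)) • UpperHalfPlane.I) - F UpperHalfPlane.I, fun z => ?_⟩
    have hd : ∀ τ : ℍ, HasDerivAt ((fun w : ℍ => F ((γ : SL(2, ℤ)) • w)) ∘ ofComplex) (g τ) τ := by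
      intro τ
      have h2 := S21.hasDerivAt_comp_smul hFderiv (γ : SL(2, ℤ)) τ
      rwa [per_slash_eq_self M g γ] at h2
    exact S21.sub_eq_sub_of_hasDerivAt hd hFderiv z UpperHalfPlane.I
  · intro δ
    obtain ⟨h', hh', hhol', hper', hzero'⟩ := per_translate_data M g δ
    obtain ⟨G, -, hGderiv, -, hGzero⟩ := Period.exists_periodic_primitive hh' hhol' hper' hzero'
    have hd : ∀ τ : ℍ, HasDerivAt ((fun w : ℍ => F (δ • w)) ∘ ofComplex)
        (((g : ℍ → ℂ) ∣[(2 : ℤ)] δ) τ) τ := S21.hasDerivAt_comp_smul hFderiv δ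
    refine ⟨F (δ • UpperHalfPlane.I) - G UpperHalfPlane.I, ?_⟩
    have e : (fun w : ℍ => F (δ • w)) =
        fun w => G w + (F (δ • UpperHalfPlane.I) - G UpperHalfPlane.I) := by
      funext w
      have h3 := S21.sub_eq_sub_of_hasDerivAt hd hGderiv w UpperHalfPlane.I
      linear_combination h3
    rw [e]
    have h4 : Tendsto G atImInfty (𝓝 0) := hGzero
    simpa using h4.add_const (F (δ • UpperHalfPlane.I) - G UpperHalfPlane.I)

/-- the cusp form on `Γ₁(M)` with underlying function `h`. -/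
def perCuspFormOfFun (M : ℕ) [NeZero M] {h : ℍ → ℂ} (hh : MDiff h)
    (hinv : ∀ γ ∈ Gamma1 M, h ∣[(2 : ℤ)] γ = h)
    (hzero : ∀ δ : SL(2, ℤ), IsZeroAtImInfty (h ∣[(2 : ℤ)] δ)) : CuspForm (Gamma1 M) 2 where
  toFun := h
  slash_action_eq' := by
    rintro _ ⟨γ, hγ, rfl⟩
    exact hinv γ hγ
  holo' := hh
  zero_at_cusps' := by
    intro c hc
    rw [Subgroup.IsArithmetic.isCusp_iff_isCusp_SL2Z] at hc
    rw [OnePoint.isZeroAt_iff_forall_SL2Z hc]
    intro γ _
    exact hzero γ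

/-- (P1, function level) a holomorphic weight-2 `Γ₁(M)`-invariant function vanishing at all cusps
has such a primitive. -/
theorem exists_primOne_of_fun (M : ℕ) [NeZero M] {h : ℍ → ℂ} (hh : MDiff h)
    (hinv : ∀ γ ∈ Gamma1 M, h ∣[(2 : ℤ)] γ = h)
    (hzero : ∀ δ : SL(2, ℤ), IsZeroAtImInfty (h ∣[(2 : ℤ)] δ)) :
    ∃ F : ℍ → ℂ, PrimOne M h F :=
  exists_primOne M (perCuspFormOfFun M hh hinv hzero)

variable {M : ℕ} {h h' F F' : ℍ → ℂ}

/-- (P2) the period homomorphism is parabolic. -/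
theorem PrimOne.isParabolicHom (hF : PrimOne M h F) :
    IsParabolicHom (Gamma1 M) hF.equiv.periodHom := by
  intro γ hγ
  show hF.equiv.period γ = 0
  obtain ⟨δ, m, hδ⟩ := S21.exists_conj_translation (γ : SL(2, ℤ)) hγ
  obtain ⟨L, hL⟩ := hF.cusp δ
  have h1 : ∀ w : ℍ, F (δ • ((m : ℝ) +ᵥ w)) - F (δ • w) = hF.equiv.period γ := by
    intro w
    rw [← hδ w]
    exact hF.equiv.sub_eq_period γ (δ • w)
  have h2 : Tendsto (fun w : ℍ => F (δ • ((m : ℝ) +ᵥ w)) - F (δ • w)) atImInfty (𝓝 (L - L)) :=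
    (hL.comp (S21.tendsto_vadd_atImInfty (m : ℝ))).sub hL
  have h3 : Tendsto (fun _ : ℍ => hF.equiv.period γ) atImInfty (𝓝 (L - L)) := by
    refine h2.congr fun w => h1 w
  have h4 := tendsto_nhds_unique h3 tendsto_const_nhds
  rw [sub_self] at h4
  exact h4.symm

/-- (P3) injectivity: vanishing periods force `h = 0`. -/
theorem PrimOne.eq_zero_of_periodHom_eq_zero [NeZero M] (hF : PrimOne M h F)
    (h0 : hF.equiv.periodHom = 0) : h = 0 := by
  have hinv : ∀ γ ∈ Gamma1 M, ∀ z : ℍ, F (γ • z) = F z := by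
    intro γ hγ z
    have h1 := hF.equiv.sub_eq_period ⟨γ, hγ⟩ z
    have h2 : hF.equiv.period ⟨γ, hγ⟩ = 0 := by
      have h3 := DFunLike.congr_fun h0 (Additive.ofMul (⟨γ, hγ⟩ : Gamma1 M))
      rw [IsEquivariantPrimitive.periodHom_apply] at h3
      exact h3
    rw [h2] at h1
    exact sub_eq_zero.mp h1
  have hconst : ∀ z w : ℍ, F z = F w :=
    S21.const_of_re_invariant (Γ := Gamma1 M) (N := M) (per_Gamma_le_Gamma1 M)
      (S21.mdiff_of_hasDerivAt hF.deriv) (fun γ hγ z => by rw [hinv γ hγ z]) hF.cusp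
  funext τ
  have h1 : HasDerivAt (F ∘ ofComplex) 0 τ := by
    have h2 : HasDerivAt (fun _ : ℂ => F τ) 0 (τ : ℂ) := hasDerivAt_const _ _
    refine h2.congr_of_eventuallyEq ?_
    filter_upwards with z
    exact hconst _ _
  exact (hF.deriv τ).unique h1

/-- (P4) independence of the primitive. -/
theorem PrimOne.periodHom_eq (hF : PrimOne M h F) (hF' : PrimOne M h F') :
    hF.equiv.periodHom = hF'.equiv.periodHom := by
  refine AddMonoidHom.ext fun γ => ?_
  show hF.equiv.period (Additive.toMul γ) = hF'.equiv.period (Additive.toMul γ)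
  unfold IsEquivariantPrimitive.period
  have := S21.sub_eq_sub_of_hasDerivAt hF.deriv hF'.deriv
    (((Additive.toMul γ : Gamma1 M) : SL(2, ℤ)) • UpperHalfPlane.I) UpperHalfPlane.I
  linear_combination this

/-- (P5) linearity. -/
theorem PrimOne.add (hF : PrimOne M h F) (hF' : PrimOne M h' F') :
    PrimOne M (h + h') (F + F') where
  deriv := fun τ => (hF.deriv τ).add (hF'.deriv τ)
  equiv := by
    intro γ
    obtain ⟨c, hc⟩ := hF.equiv γ
    obtain ⟨d, hd⟩ := hF'.equiv γ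
    exact ⟨c + d, fun z => by
      simp only [Pi.add_apply]
      rw [← hc z, ← hd z]; ring⟩
  cusp := by
    intro δ
    obtain ⟨L, hL⟩ := hF.cusp δ
    obtain ⟨L', hL'⟩ := hF'.cusp δ
    exact ⟨L + L', hL.add hL'⟩

theorem PrimOne.periodHom_add (hF : PrimOne M h F) (hF' : PrimOne M h' F') :
    (hF.add hF').equiv.periodHom = hF.equiv.periodHom + hF'.equiv.periodHom := by
  refine AddMonoidHom.ext fun γ => ?_
  show (F + F') _ - (F + F') _ = (F _ - F _) + (F' _ - F' _)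
  simp only [Pi.add_apply]
  ring

theorem PrimOne.smul (c : ℂ) (hF : PrimOne M h F) : PrimOne M (c • h) (c • F) where
  deriv := fun τ => (hF.deriv τ).const_mul c
  equiv := by
    intro γ
    obtain ⟨d, hd⟩ := hF.equiv γ
    exact ⟨c * d, fun z => by
      simp only [Pi.smul_apply, smul_eq_mul]
      rw [← hd z]; ring⟩
  cusp := by
    intro δ
    obtain ⟨L, hL⟩ := hF.cusp δ
    exact ⟨c * L, hL.const_mul c⟩

theorem PrimOne.periodHom_smul (c : ℂ) (hF : PrimOne M h F) (γ : Additive (Gamma1 M)) :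
    (hF.smul c).equiv.periodHom γ = c * hF.equiv.periodHom γ := by
  show (c • F) _ - (c • F) _ = c * (F _ - F _)
  simp only [Pi.smul_apply, smul_eq_mul]
  ring

theorem primOne_zero (M : ℕ) : PrimOne M 0 0 where
  deriv := fun τ => by
    have h2 : HasDerivAt (fun _ : ℂ => (0 : ℂ)) 0 (τ : ℂ) := hasDerivAt_const _ _
    exact h2
  equiv := fun γ => ⟨0, fun z => by simp⟩
  cusp := fun δ => ⟨0, by simp⟩

/-- (P6) `h` is holomorphic. -/
theorem PrimOne.mdiff (hF : PrimOne M h F) : MDiff h := by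
  rw [UpperHalfPlane.mdifferentiable_iff]
  have hopen : IsOpen {z : ℂ | 0 < z.im} := isOpen_lt continuous_const Complex.continuous_im
  have hd : DifferentiableOn ℂ (F ∘ ofComplex) {z : ℂ | 0 < z.im} := fun x hx =>
    (hF.deriv ⟨x, hx⟩).differentiableAt.differentiableWithinAt
  have hd2 : DifferentiableOn ℂ (_root_.deriv (F ∘ ofComplex)) {z : ℂ | 0 < z.im} :=
    hd.deriv hopen
  refine hd2.congr fun z hz => ?_
  have h1 := (hF.deriv ⟨z, hz⟩).deriv
  rw [Function.comp_apply, ofComplex_apply_of_im_pos hz]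
  exact h1.symm

end Fermat.Agent.S48WA5
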