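/-
S48 (W) seat A5, part FORMS (helper63): function-level weight-2 cusp forms on `Γ₁(M)` with
nebentypus `χ`; the classical `T_p` as the sum over the `Γ₁(M)`-representatives `heckeRepOne`
(part COSET); `q`-coefficients.  Statements: helper21's stub.

* `IsNebCusp M χ h`, (F0) `isNebCusp_of_cuspForm`, `isNebCusp_zero`, `IsNebCusp.add / smul`,
  `IsNebCusp.qCoeff_add / qCoeff_smul`, (F4) `IsNebCusp.eq_zero_of_qCoeff`;
* `heckeFunOne`, (F1) `IsNebCusp.heckeFunOne_eq`, (F2) `IsNebCusp.hecke`,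
  (F3) `IsNebCusp.qCoeff_heckeFunOne`, (F5) `IsNebCusp.heckeFunOne_comm`,
  (F6) `IsNebCusp.slash_of_map`.
-/
import Mathlib
import Fermat.Agent.S48.W.A5.Coset
import Fermat.Agent.S48.W.A5.Period
import Fermat.Prelude.Sol.S_UpperHalfPlane_qCoeff_heckeT
import Fermat.Prelude.Sol.S_CuspFormClass_isZeroAt_heckeT

set_option autoImplicit false

noncomputable section

namespace Fermat.Agent.S48WA5

open CongruenceSubgroup Matrix.SpecialLinearGroup ModularCurve.Period UpperHalfPlane Filter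
open scoped MatrixGroups Topology Manifold ModularForm
open P2MW.S_ModularForm_heckeT_slash_eq_self_of_mem_Gamma0.ModularForm.HeckeSlashInvariance
open P2MW.S_UpperHalfPlane_qCoeff_heckeT.M4cP1W2

/-- function-level weight-2 cusp forms on `Γ₁(M)` with nebentypus `χ`. -/
structure IsNebCusp (M : ℕ) [NeZero M] (χ : (ZMod M)ˣ → ℂ) (h : ℍ → ℂ) : Prop where
  holo : MDiff h
  inv : ∀ γ ∈ Gamma1 M, h ∣[(2 : ℤ)] γ = h
  neb : ∀ (γ : Gamma0 M) (d : (ZMod M)ˣ), (d : ZMod M) = Gamma0Map M γ →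
    h ∣[(2 : ℤ)] (γ : SL(2, ℤ)) = χ d • h
  zero : ∀ δ : SL(2, ℤ), IsZeroAtImInfty (h ∣[(2 : ℤ)] δ)

variable {M : ℕ} [NeZero M] {χ : (ZMod M)ˣ → ℂ} {h h' : ℍ → ℂ}

/-- (F0) a cusp form on `Γ₁(M)` with nebentypus `χ` (shape of `S48W.ModEigen.neb`). -/
theorem isNebCusp_of_cuspForm (g : CuspForm (Gamma1 M) 2) (χ : (ZMod M)ˣ → ℂ)
    (hneb : ∀ γ : SL(2, ℤ), γ ∈ Gamma0 M → ∀ d : (ZMod M)ˣ,
      ((d : ZMod M) = ((γ 1 1 : ℤ) : ZMod M)) →
      ∀ z : ℍ, ((g : ℍ → ℂ) ∣[(2 : ℤ)] γ) z = χ d * g z) :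
    IsNebCusp M χ g where
  holo := g.holo'
  inv := fun γ hγ => per_slash_eq_self M g ⟨γ, hγ⟩
  neb := fun γ d hd => by
    funext z
    exact hneb γ γ.2 d hd z
  zero := fun δ => by
    obtain ⟨-, -, -, -, hz⟩ := per_translate_data M g δ
    exact hz

theorem isNebCusp_zero (M : ℕ) [NeZero M] (χ : (ZMod M)ˣ → ℂ) : IsNebCusp M χ 0 where
  holo := by
    show MDiff (fun _ : ℍ => (0 : ℂ))
    exact mdifferentiable_const
  inv := fun γ _ => SlashAction.zero_slash _ _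
  neb := fun γ d _ => by rw [SlashAction.zero_slash, smul_zero]
  zero := fun δ => by
    rw [SlashAction.zero_slash]
    exact zero_zeroAtFilter atImInfty

theorem IsNebCusp.add (hh : IsNebCusp M χ h) (hh' : IsNebCusp M χ h') :
    IsNebCusp M χ (h + h') where
  holo := hh.holo.add hh'.holo
  inv := fun γ hγ => by rw [SlashAction.add_slash, hh.inv γ hγ, hh'.inv γ hγ]
  neb := fun γ d hd => by rw [SlashAction.add_slash, hh.neb γ d hd, hh'.neb γ d hd, smul_add]
  zero := fun δ => by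
    rw [SlashAction.add_slash]
    exact (hh.zero δ).add (hh'.zero δ)

theorem IsNebCusp.smul (c : ℂ) (hh : IsNebCusp M χ h) : IsNebCusp M χ (c • h) where
  holo := hh.holo.const_smul c
  inv := fun γ hγ => by rw [ModularForm.SL_smul_slash, hh.inv γ hγ]
  neb := fun γ d hd => by rw [ModularForm.SL_smul_slash, hh.neb γ d hd, smul_comm]
  zero := fun δ => by
    rw [ModularForm.SL_smul_slash]
    exact (hh.zero δ).smul c

/-- `T ∈ Γ₁(M)`: the width of the cusp `∞` is `1`. -/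
theorem forms_one_mem_strictPeriods (M : ℕ) :
    (1 : ℝ) ∈ ((Gamma1 M : Subgroup SL(2, ℤ)) : Subgroup (GL (Fin 2) ℝ)).strictPeriods := by
  have hT : ModularGroup.T ∈ Gamma1 M := by
    rw [Gamma1_mem]
    simp [ModularGroup.T]
  rw [Subgroup.strictPeriods_eq_zmultiples_one_of_T_mem hT]
  exact AddSubgroup.mem_zmultiples (1 : ℝ)

/-- the bundled cusp form on `Γ₁(M)`. -/
def IsNebCusp.toCuspForm (hh : IsNebCusp M χ h) : CuspForm (Gamma1 M) 2 :=
  perCuspFormOfFun M hh.holo hh.inv hh.zero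

theorem IsNebCusp.coe_toCuspForm (hh : IsNebCusp M χ h) : (hh.toCuspForm : ℍ → ℂ) = h := rfl

theorem IsNebCusp.periodic (hh : IsNebCusp M χ h) : Function.Periodic (h ∘ ofComplex) 1 :=
  SlashInvariantFormClass.periodic_comp_ofComplex hh.toCuspForm (forms_one_mem_strictPeriods M)

theorem IsNebCusp.isZeroAtImInfty (hh : IsNebCusp M χ h) : IsZeroAtImInfty h := by
  have := hh.zero 1
  rwa [SlashAction.slash_one] at this

theorem IsNebCusp.isBoundedAtImInfty (hh : IsNebCusp M χ h) : IsBoundedAtImInfty h :=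
  hh.isZeroAtImInfty.isBoundedAtImInfty

/-- the `q`-expansion converges to `h`. -/
theorem IsNebCusp.hasSum (hh : IsNebCusp M χ h) (τ : ℍ) :
    HasSum (fun m : ℕ => ModularFormClass.qCoeff h m • Function.Periodic.qParam 1 τ ^ m) (h τ) :=
  hasSum_qExpansion one_pos hh.periodic hh.holo hh.isBoundedAtImInfty τ

/-- uniqueness of the `q`-expansion. -/
theorem IsNebCusp.qCoeff_eq_of_hasSum (hh : IsNebCusp M χ h) {c : ℕ → ℂ}
    (hs : ∀ τ : ℍ, HasSum (fun m : ℕ => c m • Function.Periodic.qParam 1 τ ^ m) (h τ)) (n : ℕ) :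
    ModularFormClass.qCoeff h n = c n :=
  (qExpansion_coeff_unique' hh.holo.continuous
    (analyticAt_cuspFunction_zero one_pos hh.periodic hh.holo hh.isBoundedAtImInfty) hs n).symm

theorem IsNebCusp.qCoeff_add (hh : IsNebCusp M χ h) (hh' : IsNebCusp M χ h') (n : ℕ) :
    ModularFormClass.qCoeff (h + h') n = ModularFormClass.qCoeff h n + ModularFormClass.qCoeff h' n := by
  refine (hh.add hh').qCoeff_eq_of_hasSum
    (c := fun m => ModularFormClass.qCoeff h m + ModularFormClass.qCoeff h' m) (fun τ => ?_) n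
  have := (hh.hasSum τ).add (hh'.hasSum τ)
  simpa only [add_smul, Pi.add_apply] using this

theorem IsNebCusp.qCoeff_smul (c : ℂ) (hh : IsNebCusp M χ h) (n : ℕ) :
    ModularFormClass.qCoeff (c • h) n = c * ModularFormClass.qCoeff h n := by
  refine (hh.smul c).qCoeff_eq_of_hasSum
    (c := fun m => c * ModularFormClass.qCoeff h m) (fun τ => ?_) n
  have := (hh.hasSum τ).mul_left c
  simpa only [smul_eq_mul, mul_assoc, Pi.smul_apply] using this

/-- (F4) `q`-expansion principle. -/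
theorem IsNebCusp.eq_zero_of_qCoeff (hh : IsNebCusp M χ h)
    (h0 : ∀ n, ModularFormClass.qCoeff h n = 0) : h = 0 := by
  funext τ
  have h1 := hh.hasSum τ
  simp only [h0, zero_smul] at h1
  exact h1.unique hasSum_zero

/-- the primitive (from PER, function level). -/
theorem IsNebCusp.exists_primOne (hh : IsNebCusp M χ h) : ∃ F : ℍ → ℂ, PrimOne M h F :=
  exists_primOne_of_fun M hh.holo hh.inv hh.zero

/-! ### the Hecke operator `T_p` -/

variable {p q : ℕ} [Fact p.Prime] [Fact q.Prime]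

/-- the classical Hecke operator `T_p` on weight-2 functions of level `Γ₁(M)`. -/
def heckeFunOne (M : ℕ) [NeZero M] {p : ℕ} [Fact p.Prime] (hpM : Nat.Coprime p M) (h : ℍ → ℂ) :
    ℍ → ℂ :=
  ∑ x : OnePoint (ZMod p), h ∣[(2 : ℤ)] heckeRepOne M hpM x

omit [Fact p.Prime] in
/-- scalars commute with the slash by `heckeRep p x` (positive determinant). -/
theorem forms_smul_slash_heckeRep (c : ℂ) (f : ℍ → ℂ) (x : OnePoint (ZMod p)) :
    (c • f) ∣[(2 : ℤ)] heckeRep p x = c • (f ∣[(2 : ℤ)] heckeRep p x) := by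
  induction x using OnePoint.rec with
  | infty =>
    rw [heckeRep_infty, ModularForm.smul_slash, ModularForm.σ_heckeDiagMatrix,
      ContinuousAlgEquiv.refl_apply]
  | coe j =>
    rw [heckeRep_coe, ModularForm.smul_slash, ModularForm.σ_heckeMatrix,
      ContinuousAlgEquiv.refl_apply]

/-- scalars commute with the slash by `heckeRepOne M hpM x`. -/
theorem forms_smul_slash_heckeRepOne (hpM : Nat.Coprime p M) (c : ℂ) (f : ℍ → ℂ)
    (x : OnePoint (ZMod p)) :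
    (c • f) ∣[(2 : ℤ)] heckeRepOne M hpM x = c • (f ∣[(2 : ℤ)] heckeRepOne M hpM x) := by
  rw [heckeRepOne_eq, SlashAction.slash_mul, SlashAction.slash_mul]
  have h1 : (c • f) ∣[(2 : ℤ)] (mapGL ℝ ((cosetTwist hpM x : Gamma0 M) : SL(2, ℤ))) =
      c • (f ∣[(2 : ℤ)] (mapGL ℝ ((cosetTwist hpM x : Gamma0 M) : SL(2, ℤ)))) :=
    ModularForm.SL_smul_slash 2 ((cosetTwist hpM x : Gamma0 M) : SL(2, ℤ)) f c
  rw [h1, forms_smul_slash_heckeRep]

/-- (F1) -/
theorem IsNebCusp.heckeFunOne_eq (hpM : Nat.Coprime p M) (hh : IsNebCusp M χ h) :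
    heckeFunOne M hpM h = ModularForm.heckeU 2 p h +
      χ (ZMod.unitOfCoprime p hpM) • (h ∣[(2 : ℤ)] ModularForm.heckeDiagMatrix p) := by
  rw [heckeFunOne, heckeU_eq_sum_zmod, add_comm]
  refine (Fintype.sum_option (fun x : OnePoint (ZMod p) => h ∣[(2 : ℤ)] heckeRepOne M hpM x)).trans ?_
  congr 1
  show h ∣[(2 : ℤ)] (mapGL ℝ ((diaRep M (ZMod.unitOfCoprime p hpM) : Gamma0 M) : SL(2, ℤ)) *
    ModularForm.heckeDiagMatrix p) = _
  rw [SlashAction.slash_mul]
  have h1 : h ∣[(2 : ℤ)] (mapGL ℝ ((diaRep M (ZMod.unitOfCoprime p hpM) : Gamma0 M) : SL(2, ℤ))) =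
      χ (ZMod.unitOfCoprime p hpM) • h :=
    hh.neb (diaRep M (ZMod.unitOfCoprime p hpM)) _ (diaRep_spec M _).symm
  rw [h1, ModularForm.smul_slash, ModularForm.σ_heckeDiagMatrix, ContinuousAlgEquiv.refl_apply]

/-- the slash of `T_p h` by `γ ∈ Γ₀(M)`. -/
theorem heckeFunOne_slash (hpM : Nat.Coprime p M) (h : ℍ → ℂ) (γ : Gamma0 M) :
    (heckeFunOne M hpM h) ∣[(2 : ℤ)] (γ : SL(2, ℤ)) =
      ∑ x : OnePoint (ZMod p), (h ∣[(2 : ℤ)] ((cosetZero hpM γ x : Gamma0 M) : SL(2, ℤ)))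
        ∣[(2 : ℤ)] heckeRepOne M hpM (redMatrix p (γ : SL(2, ℤ)) • x) := by
  rw [heckeFunOne, ModularForm.SL_slash, SlashAction.sum_slash]
  refine Finset.sum_congr rfl fun x _ => ?_
  show (h ∣[(2 : ℤ)] heckeRepOne M hpM x) ∣[(2 : ℤ)] (mapGL ℝ (γ : SL(2, ℤ))) =
    (h ∣[(2 : ℤ)] (mapGL ℝ ((cosetZero hpM γ x : Gamma0 M) : SL(2, ℤ))))
      ∣[(2 : ℤ)] heckeRepOne M hpM (redMatrix p (γ : SL(2, ℤ)) • x)
  rw [← SlashAction.slash_mul, cosetZero_spec hpM γ x, SlashAction.slash_mul]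

theorem forms_sum_comp_redMatrix (hpM : Nat.Coprime p M) (h : ℍ → ℂ) (γ : SL(2, ℤ)) :
    ∑ x : OnePoint (ZMod p), h ∣[(2 : ℤ)] heckeRepOne M hpM (redMatrix p γ • x) =
      ∑ x : OnePoint (ZMod p), h ∣[(2 : ℤ)] heckeRepOne M hpM x :=
  Equiv.sum_comp (MulAction.toPerm (redMatrix p γ)) (fun x => h ∣[(2 : ℤ)] heckeRepOne M hpM x)

/-- (F2) -/
theorem IsNebCusp.hecke (hpM : Nat.Coprime p M) (hh : IsNebCusp M χ h) :
    IsNebCusp M χ (heckeFunOne M hpM h) where
  holo := by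
    rw [heckeFunOne]
    exact Finset.sum_induction _ (fun g : ℍ → ℂ => MDiff g) (fun _ _ ha hb => ha.add hb)
      mdifferentiable_const (fun _ _ => hh.holo.slash 2 _)
  inv := by
    intro γ hγ
    have h1 := heckeFunOne_slash hpM h ⟨γ, Gamma1_in_Gamma0 M hγ⟩
    rw [show ((⟨γ, Gamma1_in_Gamma0 M hγ⟩ : Gamma0 M) : SL(2, ℤ)) = γ from rfl] at h1
    rw [h1]
    have h2 : ∀ x : OnePoint (ZMod p),
        (h ∣[(2 : ℤ)] ((cosetZero hpM ⟨γ, Gamma1_in_Gamma0 M hγ⟩ x : Gamma0 M) : SL(2, ℤ)))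
          ∣[(2 : ℤ)] heckeRepOne M hpM (redMatrix p γ • x) =
        h ∣[(2 : ℤ)] heckeRepOne M hpM (redMatrix p γ • x) := by
      intro x
      rw [hh.inv _ (cosetOne_mem hpM ⟨γ, hγ⟩ x)]
    rw [Finset.sum_congr rfl fun x _ => h2 x, forms_sum_comp_redMatrix]
    rfl
  neb := by
    intro γ d hd
    rw [heckeFunOne_slash]
    have h2 : ∀ x : OnePoint (ZMod p),
        (h ∣[(2 : ℤ)] ((cosetZero hpM γ x : Gamma0 M) : SL(2, ℤ)))
          ∣[(2 : ℤ)] heckeRepOne M hpM (redMatrix p (γ : SL(2, ℤ)) • x) =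
        χ d • (h ∣[(2 : ℤ)] heckeRepOne M hpM (redMatrix p (γ : SL(2, ℤ)) • x)) := by
      intro x
      rw [hh.neb (cosetZero hpM γ x) d (hd.trans (cosetZero_map hpM γ x).symm),
        forms_smul_slash_heckeRepOne]
    rw [Finset.sum_congr rfl fun x _ => h2 x, ← Finset.smul_sum, forms_sum_comp_redMatrix]
    rfl
  zero := by
    intro δ
    rw [hh.heckeFunOne_eq hpM, SlashAction.add_slash, ModularForm.SL_smul_slash]
    have hc : IsCusp (mapGL ℝ δ • OnePoint.infty)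
        ((Gamma1 M : Subgroup SL(2, ℤ)) : Subgroup (GL (Fin 2) ℝ)) := by
      rw [Subgroup.IsArithmetic.isCusp_iff_isCusp_SL2Z, isCusp_SL2Z_iff']
      exact ⟨δ, rfl⟩
    have h1 : OnePoint.IsZeroAt (mapGL ℝ δ • OnePoint.infty) (ModularForm.heckeU 2 p h) 2 :=
      P2MW.S_CuspFormClass_isZeroAt_heckeT.ModularForm.S06W2.isZeroAt_heckeU hh.toCuspForm p hc
    obtain ⟨g, hg⟩ :=
      P2MW.S_CuspFormClass_isZeroAt_heckeT.ModularForm.S06W2.exists_heckeDiagMatrix_eq_map p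
    have h2 : OnePoint.IsZeroAt (mapGL ℝ δ • OnePoint.infty)
        (h ∣[(2 : ℤ)] ModularForm.heckeDiagMatrix p) 2 := by
      rw [hg]
      exact P2MW.S_CuspFormClass_isZeroAt_heckeT.ModularForm.S06W2.isZeroAt_slash_ratCast
        hh.toCuspForm g hc
    exact (h1 (mapGL ℝ δ) rfl).add ((h2 (mapGL ℝ δ) rfl).smul _)

/-- (F3) -/
theorem IsNebCusp.qCoeff_heckeFunOne (hpM : Nat.Coprime p M) (hh : IsNebCusp M χ h) (n : ℕ) :
    ModularFormClass.qCoeff (heckeFunOne M hpM h) n =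
      ModularFormClass.qCoeff h (p * n) +
        (p : ℂ) * χ (ZMod.unitOfCoprime p hpM) *
          (if p ∣ n then ModularFormClass.qCoeff h (n / p) else 0) := by
  have hp : p ≠ 0 := (Fact.out : p.Prime).ne_zero
  refine (hh.hecke hpM).qCoeff_eq_of_hasSum
    (c := fun n => ModularFormClass.qCoeff h (p * n) +
        (p : ℂ) * χ (ZMod.unitOfCoprime p hpM) *
          (if p ∣ n then ModularFormClass.qCoeff h (n / p) else 0)) (fun τ => ?_) n
  rw [hh.heckeFunOne_eq hpM]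
  have h1 := hasSum_heckeU hp hh.periodic hh.holo hh.isBoundedAtImInfty 2 τ
  have h2 := (hasSum_diag hp hh.periodic hh.holo hh.isBoundedAtImInfty 2 τ).mul_left
    (χ (ZMod.unitOfCoprime p hpM))
  have h3 := h1.add h2
  have e : (ModularForm.heckeU 2 p h +
      χ (ZMod.unitOfCoprime p hpM) • (h ∣[(2 : ℤ)] ModularForm.heckeDiagMatrix p)) τ =
      ModularForm.heckeU 2 p h τ + χ (ZMod.unitOfCoprime p hpM) *
        ((p : ℂ) ^ ((2 : ℤ) - 1) * h (ModularForm.heckeDiagMatrix p • τ)) := by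
    rw [Pi.add_apply, Pi.smul_apply, smul_eq_mul, ModularForm.slash_heckeDiagMatrix_apply 2 hp]
  rw [e]
  convert h3 using 1
  funext m
  simp only [ModularForm.coeffHeckeU_apply, smul_eq_mul]
  have hp1 : (p : ℂ) ^ ((2 : ℤ) - 1) = p := by norm_num
  rw [hp1, mul_comm m p]
  split_ifs <;> ring

/-- the arithmetic of the commutation of `T_p` and `T_q` on `q`-coefficients, `p ≠ q`. -/
theorem forms_comm_arith (a : ℕ → ℂ) {p q : ℕ} (hp : p.Prime) (hq : q.Prime) (hpq : p ≠ q)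
    (cp cq : ℂ) (n : ℕ) :
    (a (p * (q * n)) + cp * (if p ∣ q * n then a (q * n / p) else 0)) +
      cq * (if q ∣ n then (a (p * (n / q)) + cp * (if p ∣ n / q then a (n / q / p) else 0))
        else 0) =
    (a (q * (p * n)) + cq * (if q ∣ p * n then a (p * n / q) else 0)) +
      cp * (if p ∣ n then (a (q * (n / p)) + cq * (if q ∣ n / p then a (n / p / q) else 0))
        else 0) := by
  have hcop : Nat.Coprime p q := (Nat.coprime_primes hp hq).mpr hpq
  have e1 : p ∣ q * n ↔ p ∣ n := hcop.dvd_mul_left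
  have e2 : q ∣ p * n ↔ q ∣ n := hcop.symm.dvd_mul_left
  have e0 : p * (q * n) = q * (p * n) := mul_left_comm p q n
  by_cases h1 : p ∣ n <;> by_cases h2 : q ∣ n
  · have h3 : p ∣ n / q := by
      have h4 : p ∣ q * (n / q) := by rwa [Nat.mul_div_cancel' h2]
      exact hcop.dvd_of_dvd_mul_left h4
    have h5 : q ∣ n / p := by
      have h4 : q ∣ p * (n / p) := by rwa [Nat.mul_div_cancel' h1]
      exact hcop.symm.dvd_of_dvd_mul_left h4
    rw [if_pos (e1.mpr h1), if_pos h2, if_pos (e2.mpr h2), if_pos h1, if_pos h3, if_pos h5,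
      Nat.mul_div_assoc q h1, Nat.mul_div_assoc p h2, Nat.div_div_eq_div_mul,
      Nat.div_div_eq_div_mul, mul_comm q p, e0]
    ring
  · have h5 : ¬ q ∣ n / p := fun h => h2 (dvd_trans h (Nat.div_dvd_of_dvd h1))
    rw [if_pos (e1.mpr h1), if_neg h2, if_neg (mt e2.mp h2), if_pos h1, if_neg h5,
      Nat.mul_div_assoc q h1, e0]
    ring
  · have h3 : ¬ p ∣ n / q := fun h => h1 (dvd_trans h (Nat.div_dvd_of_dvd h2))
    rw [if_neg (mt e1.mp h1), if_pos h2, if_pos (e2.mpr h2), if_neg h1, if_neg h3,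
      Nat.mul_div_assoc p h2, e0]
    ring
  · rw [if_neg (mt e1.mp h1), if_neg h2, if_neg (mt e2.mp h2), if_neg h1, e0]
    ring

/-- (F5) the `T_p` commute on forms with nebentypus (by `q`-expansions). -/
theorem IsNebCusp.heckeFunOne_comm (hpM : Nat.Coprime p M) (hqM : Nat.Coprime q M)
    (hh : IsNebCusp M χ h) :
    heckeFunOne M hqM (heckeFunOne M hpM h) = heckeFunOne M hpM (heckeFunOne M hqM h) := by
  by_cases hpq : p = q
  · subst hpq
    rfl
  have hL := (hh.hecke hpM).hecke hqM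
  have hR := (hh.hecke hqM).hecke hpM
  have hD := hL.add (hR.smul (-1))
  have h0 := hD.eq_zero_of_qCoeff (fun n => by
    rw [hL.qCoeff_add (hR.smul (-1)), hR.qCoeff_smul, (hh.hecke hpM).qCoeff_heckeFunOne hqM,
      (hh.hecke hqM).qCoeff_heckeFunOne hpM]
    simp only [hh.qCoeff_heckeFunOne hpM, hh.qCoeff_heckeFunOne hqM]
    have key := forms_comm_arith (ModularFormClass.qCoeff h) (Fact.out : p.Prime)
      (Fact.out : q.Prime) hpq ((p : ℂ) * χ (ZMod.unitOfCoprime p hpM))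
      ((q : ℂ) * χ (ZMod.unitOfCoprime q hqM)) n
    linear_combination key)
  have h1 := add_eq_zero_iff_eq_neg.mp h0
  rw [h1]
  funext τ
  simp

/-- (F6) the diamond operator is the scalar `χ d`. -/
theorem IsNebCusp.slash_of_map (hh : IsNebCusp M χ h) (σ : Gamma0 M) (d : (ZMod M)ˣ)
    (hσ : Gamma0Map M σ = (d : ZMod M)) : h ∣[(2 : ℤ)] (σ : SL(2, ℤ)) = χ d • h :=
  hh.neb σ d hσ.symm

end Fermat.Agent.S48WA5
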