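/-
S48 wall (W), seat A5 (owner helper21), part HECKE-PER (helper67), core.

Periods of `T_p h` and of `h ∣ σ` at the level of primitives (`PrimOne`), independent of the
parts FORMS and HECKE: the primitive of `∑ x, h ∣[2] heckeRepOne M hpM x` is
`z ↦ ∑ x, F (heckeRepOne M hpM x • z)` and its period at `γ ∈ Γ₁(M)` is
`∑ x, period (cosetOne hpM γ x)`; the primitive of `h ∣[2] σ` (`σ ∈ Γ₀(M)`) is `z ↦ F (σ • z)`
and its period at `γ` is the period of `σ γ σ⁻¹`.
-/
import Mathlib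
import Fermat.Agent.S48.W.A5.Coset
import Fermat.Agent.S48.W.A5.Period

set_option autoImplicit false

noncomputable section

namespace Fermat.Agent.S48WA5

open CongruenceSubgroup Matrix.SpecialLinearGroup ModularCurve.Period UpperHalfPlane Filter
open scoped MatrixGroups Topology Manifold ModularForm
open P2MW.S_ModularForm_heckeT_slash_eq_self_of_mem_Gamma0.ModularForm.HeckeSlashInvariance

/-- Chain rule for the Möbius action of `GL₂(ℝ)⁺`: if `F` is a primitive of `f`, then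
`F ∘ g` is a primitive of `f ∣[2] g`. -/
theorem hpc_hasDerivAt_comp_glsmul {F f : ℍ → ℂ}
    (hF : ∀ τ : ℍ, HasDerivAt (F ∘ ofComplex) (f τ) τ) {g : GL (Fin 2) ℝ}
    (hg : 0 < g.val.det) (τ : ℍ) :
    HasDerivAt ((fun w : ℍ => F (g • w)) ∘ ofComplex) ((f ∣[(2 : ℤ)] g) τ) τ := by
  have h1 : HasDerivAt (fun z : ℂ => (((g • ofComplex z : ℍ)) : ℂ))
      ((g.val.det : ℂ) / denom g τ ^ 2) τ :=
    (hasStrictDerivAt_smul hg τ).hasDerivAt
  have h2 : HasDerivAt (F ∘ ofComplex) (f (g • ofComplex (τ : ℂ)))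
      (((g • ofComplex (τ : ℂ) : ℍ)) : ℂ) := hF _
  have h3 := h2.comp (τ : ℂ) h1
  have e1 : ((fun w : ℍ => F (g • w)) ∘ ofComplex) =
      (F ∘ ofComplex) ∘ (fun z : ℂ => (((g • ofComplex z : ℍ)) : ℂ)) := by
    funext z
    simp [Function.comp]
  rw [e1]
  have hdet : g.det.val = g.val.det := Matrix.GeneralLinearGroup.val_det_apply g
  have hσ : ∀ x : ℂ, σ g x = x := fun x => by simp [σ, hdet, hg]
  have e2 : f (g • ofComplex (τ : ℂ)) * ((g.val.det : ℂ) / denom g τ ^ 2) =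
      (f ∣[(2 : ℤ)] g) τ := by
    rw [ModularForm.slash_apply, hσ, hdet, abs_of_pos hg, ofComplex_apply]
    simp only [zpow_neg]
    norm_num
    ring
  rw [← e2]
  exact h3

variable {M : ℕ} [NeZero M] {h F : ℍ → ℂ} {p : ℕ} [Fact p.Prime]

omit [NeZero M] in
/-- the determinant of `heckeRep p x` is `p`. -/
theorem hpc_val_det_heckeRep (x : OnePoint (ZMod p)) :
    (heckeRep p x : GL (Fin 2) ℝ).val.det = (p : ℝ) := by
  have hp : p ≠ 0 := (Fact.out : p.Prime).ne_zero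
  induction x using OnePoint.rec with
  | infty =>
    rw [heckeRep_infty, ModularForm.val_heckeDiagMatrix hp, Matrix.det_fin_two_of]
    simp
  | coe j =>
    rw [heckeRep_coe, ModularForm.val_heckeMatrix hp, Matrix.det_fin_two_of]
    simp

omit [NeZero M] in
theorem hpc_val_det_mapGL (g : SL(2, ℤ)) : (mapGL ℝ g : GL (Fin 2) ℝ).val.det = 1 := by
  rw [← Matrix.GeneralLinearGroup.val_det_apply]
  simp

/-- the determinant of `heckeRepOne M hpM x` is positive. -/
theorem hpc_val_det_heckeRepOne_pos (hpM : Nat.Coprime p M) (x : OnePoint (ZMod p)) :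
    0 < (heckeRepOne M hpM x : GL (Fin 2) ℝ).val.det := by
  have hp : 0 < p := (Fact.out : p.Prime).pos
  rw [heckeRepOne_eq, Units.val_mul, Matrix.det_mul, hpc_val_det_mapGL, one_mul,
    hpc_val_det_heckeRep]
  exact_mod_cast hp

omit [NeZero M] in
/-- `heckeRep p x` maps `atImInfty` to itself. -/
theorem hpc_tendsto_heckeRep_smul (x : OnePoint (ZMod p)) :
    Tendsto (fun w : ℍ => heckeRep p x • w) atImInfty atImInfty := by
  have hp : 0 < p := (Fact.out : p.Prime).pos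
  rw [atImInfty, tendsto_comap_iff]
  have hLRpos : (0 : ℝ) < (heckeLR p x : ℝ) := by
    induction x using OnePoint.rec with
    | infty => simp [heckeLR]
    | coe j =>
      show (0 : ℝ) < ((p : ℕ) : ℝ)
      exact_mod_cast hp
  have him : ∀ w : ℍ, (heckeRep p x • w).im =
      ((p : ℝ) / ((heckeLR p x : ℝ) * (heckeLR p x : ℝ))) * w.im := by
    intro w
    rw [UpperHalfPlane.im_smul_eq_div_normSq, Matrix.GeneralLinearGroup.val_det_apply,
      hpc_val_det_heckeRep]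
    have hden : denom (heckeRep p x) w = ((heckeLR p x : ℝ) : ℂ) := by
      rw [denom, heckeRep_one_zero, heckeRep_one_one]
      simp
    rw [hden, Complex.normSq_ofReal]
    have hpos : (0 : ℝ) < (p : ℝ) := by exact_mod_cast hp
    rw [abs_of_pos hpos]
    field_simp
  have hfun : (UpperHalfPlane.im ∘ fun w : ℍ => heckeRep p x • w) =
      fun w : ℍ => ((p : ℝ) / ((heckeLR p x : ℝ) * (heckeLR p x : ℝ))) * w.im := funext him
  rw [hfun]
  have hc : (0 : ℝ) < (p : ℝ) / ((heckeLR p x : ℝ) * (heckeLR p x : ℝ)) := by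
    apply div_pos
    · exact_mod_cast hp
    · exact mul_pos hLRpos hLRpos
  exact (tendsto_comap.const_mul_atTop hc)

/-- limits at the cusps of `w ↦ F (heckeRepOne M hpM x • w)`. -/
theorem hpc_cusp (hpM : Nat.Coprime p M) (hF : PrimOne M h F) (x : OnePoint (ZMod p))
    (δ : SL(2, ℤ)) :
    ∃ L : ℂ, Tendsto (fun w : ℍ => F (heckeRepOne M hpM x • (δ • w))) atImInfty (𝓝 L) := by
  have hp : p.Prime := Fact.out
  have hp1 : ¬ p ∣ 1 := fun hd => hp.one_lt.ne' (Nat.dvd_one.mp hd)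
  obtain ⟨g', -, hmul⟩ := heckeRep_mul (N := 1) hp1 δ (by simp) x
  obtain ⟨L, hL⟩ := hF.cusp (((cosetTwist hpM x : Gamma0 M) : SL(2, ℤ)) * g')
  refine ⟨L, ?_⟩
  have hfun : (fun w : ℍ => F (heckeRepOne M hpM x • (δ • w))) =
      (fun w : ℍ => F ((((cosetTwist hpM x : Gamma0 M) : SL(2, ℤ)) * g') • w)) ∘
        (fun w : ℍ => heckeRep p (redMatrix p δ • x) • w) := by
    funext w
    simp only [Function.comp]
    have h1 : δ • w = mapGL ℝ δ • w := rfl
    have h2 : ∀ (g : SL(2, ℤ)) (w : ℍ), g • w = mapGL ℝ g • w := fun _ _ => rfl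
    rw [h1, ← mul_smul, heckeRepOne_eq, mul_assoc, hmul, h2, map_mul, ← mul_smul, mul_assoc]
  rw [hfun]
  exact hL.comp (hpc_tendsto_heckeRep_smul _)

/-- the key relation: `F (α'_x γ z) = F (α'_{γ̄ x} z) + period (γ_x)`. -/
theorem hpc_key (hpM : Nat.Coprime p M) (hF : PrimOne M h F) (γ : Gamma1 M)
    (x : OnePoint (ZMod p)) (z : ℍ) :
    F (heckeRepOne M hpM x • ((γ : SL(2, ℤ)) • z)) =
      F (heckeRepOne M hpM (redMatrix p (γ : SL(2, ℤ)) • x) • z) +
        hF.equiv.period (cosetOne hpM γ x) := by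
  have h1 : (γ : SL(2, ℤ)) • z = mapGL ℝ (γ : SL(2, ℤ)) • z := rfl
  have h2 : ∀ (g : SL(2, ℤ)) (w : ℍ), mapGL ℝ g • w = g • w := fun _ _ => rfl
  rw [h1, ← mul_smul, cosetOne_spec hpM γ x, mul_smul, h2]
  have h3 := hF.equiv.sub_eq_period (cosetOne hpM γ x)
    (heckeRepOne M hpM (redMatrix p (γ : SL(2, ℤ)) • x) • z)
  rw [← h3]
  ring

/-- (H1, core) the primitive of `T_p h`. -/
theorem PrimOne.heckeCore (hpM : Nat.Coprime p M) (hF : PrimOne M h F) :
    PrimOne M (∑ x : OnePoint (ZMod p), h ∣[(2 : ℤ)] heckeRepOne M hpM x)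
      (fun z => ∑ x : OnePoint (ZMod p), F (heckeRepOne M hpM x • z)) where
  deriv := by
    intro τ
    rw [Finset.sum_apply]
    have hd : ∀ x ∈ (Finset.univ : Finset (OnePoint (ZMod p))),
        HasDerivAt ((fun w : ℍ => F (heckeRepOne M hpM x • w)) ∘ ofComplex)
          ((h ∣[(2 : ℤ)] heckeRepOne M hpM x) τ) τ := fun x _ =>
      hpc_hasDerivAt_comp_glsmul hF.deriv (hpc_val_det_heckeRepOne_pos hpM x) τ
    have hs := HasDerivAt.fun_sum hd
    refine hs.congr_of_eventuallyEq (Eventually.of_forall fun z => ?_)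
    simp [Function.comp]
  equiv := by
    intro γ
    refine ⟨∑ x : OnePoint (ZMod p), hF.equiv.period (cosetOne hpM γ x), fun z => ?_⟩
    have hperm : ∑ x : OnePoint (ZMod p),
        F (heckeRepOne M hpM (redMatrix p (γ : SL(2, ℤ)) • x) • z) =
        ∑ x : OnePoint (ZMod p), F (heckeRepOne M hpM x • z) :=
      Equiv.sum_comp (MulAction.toPerm (redMatrix p (γ : SL(2, ℤ))))
        (fun x => F (heckeRepOne M hpM x • z))
    simp only [hpc_key hpM hF γ, Finset.sum_add_distrib, hperm]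
    ring
  cusp := by
    intro δ
    choose L hL using fun x => hpc_cusp hpM hF x δ
    exact ⟨∑ x, L x, tendsto_finsetSum _ fun x _ => hL x⟩

/-- (H1, core) the periods of `T_p h`. -/
theorem PrimOne.heckeCore_period (hpM : Nat.Coprime p M) (hF : PrimOne M h F) (γ : Gamma1 M) :
    (hF.heckeCore hpM).equiv.periodHom (Additive.ofMul γ) =
      ∑ x : OnePoint (ZMod p), hF.equiv.periodHom (Additive.ofMul (cosetOne hpM γ x)) := by
  rw [IsEquivariantPrimitive.periodHom_apply]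
  simp only [IsEquivariantPrimitive.periodHom_apply]
  show (∑ x : OnePoint (ZMod p), F (heckeRepOne M hpM x • ((γ : SL(2, ℤ)) • UpperHalfPlane.I))) -
    ∑ x : OnePoint (ZMod p), F (heckeRepOne M hpM x • UpperHalfPlane.I) = _
  have hperm : ∑ x : OnePoint (ZMod p),
      F (heckeRepOne M hpM (redMatrix p (γ : SL(2, ℤ)) • x) • UpperHalfPlane.I) =
      ∑ x : OnePoint (ZMod p), F (heckeRepOne M hpM x • UpperHalfPlane.I) :=
    Equiv.sum_comp (MulAction.toPerm (redMatrix p (γ : SL(2, ℤ))))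
      (fun x => F (heckeRepOne M hpM x • UpperHalfPlane.I))
  simp only [hpc_key hpM hF γ, Finset.sum_add_distrib, hperm]
  ring

/-- (H2) the primitive and the periods of `h ∣ σ`, `σ ∈ Γ₀(M)`. -/
theorem PrimOne.diamond (σ : Gamma0 M) (hF : PrimOne M h F) :
    ∃ hG : PrimOne M (h ∣[(2 : ℤ)] (σ : SL(2, ℤ))) (fun z => F ((σ : SL(2, ℤ)) • z)),
      ∀ γ : Gamma1 M, hG.equiv.periodHom (Additive.ofMul γ) =
        hF.equiv.periodHom (Additive.ofMul (conjOne σ γ)) := by
  have key : ∀ (γ : Gamma1 M) (z : ℍ), F ((σ : SL(2, ℤ)) • ((γ : SL(2, ℤ)) • z)) =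
      F ((σ : SL(2, ℤ)) • z) + hF.equiv.period (conjOne σ γ) := by
    intro γ z
    have h3 := hF.equiv.sub_eq_period (conjOne σ γ) ((σ : SL(2, ℤ)) • z)
    have h4 : ((conjOne σ γ : Gamma1 M) : SL(2, ℤ)) • ((σ : SL(2, ℤ)) • z) =
        (σ : SL(2, ℤ)) • ((γ : SL(2, ℤ)) • z) := by
      rw [← mul_smul, ← mul_smul]
      show ((σ : SL(2, ℤ)) * (γ : SL(2, ℤ)) * (σ : SL(2, ℤ))⁻¹ * (σ : SL(2, ℤ))) • z = _
      rw [inv_mul_cancel_right]
    rw [h4] at h3
    rw [← h3]
    ring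
  have hG : PrimOne M (h ∣[(2 : ℤ)] (σ : SL(2, ℤ))) (fun z => F ((σ : SL(2, ℤ)) • z)) :=
    { deriv := S21.hasDerivAt_comp_smul hF.deriv (σ : SL(2, ℤ))
      equiv := fun γ => ⟨hF.equiv.period (conjOne σ γ), fun z => by
        show F ((σ : SL(2, ℤ)) • ((γ : SL(2, ℤ)) • z)) - F ((σ : SL(2, ℤ)) • z) = _
        rw [key γ z]; ring⟩
      cusp := fun δ => by
        obtain ⟨L, hL⟩ := hF.cusp ((σ : SL(2, ℤ)) * δ)
        refine ⟨L, ?_⟩
        have hfun : (fun w : ℍ => F ((σ : SL(2, ℤ)) • (δ • w))) =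
            fun w : ℍ => F (((σ : SL(2, ℤ)) * δ) • w) := by
          funext w
          rw [mul_smul]
        show Tendsto (fun w : ℍ => F ((σ : SL(2, ℤ)) • (δ • w))) atImInfty (𝓝 L)
        rw [hfun]
        exact hL }
  refine ⟨hG, fun γ => ?_⟩
  rw [IsEquivariantPrimitive.periodHom_apply, IsEquivariantPrimitive.periodHom_apply]
  show F ((σ : SL(2, ℤ)) • ((γ : SL(2, ℤ)) • UpperHalfPlane.I)) -
    F ((σ : SL(2, ℤ)) • UpperHalfPlane.I) = _
  rw [key γ UpperHalfPlane.I]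
  ring

end Fermat.Agent.S48WA5
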