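/-
S48 wall (W), seat A5 (owner helper21), part HECKE-PER (helper67), in terms of part HECKE.

Periods of `T_p h` (H1) and of `h ∣ σ` (H2, `PrimOne.diamond`, in `HeckePeriodCore.lean`) in terms
of the operators of part HECKE on `Hom(Γ₁(M), ℂ)`.
-/
import Mathlib
import Fermat.Agent.S48.W.A5.HeckePeriodCore
import Fermat.Agent.S48.W.A5.Hecke

set_option autoImplicit false

noncomputable section

namespace Fermat.Agent.S48WA5

open CongruenceSubgroup Matrix.SpecialLinearGroup ModularCurve.Period UpperHalfPlane Filter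
open scoped MatrixGroups Topology Manifold ModularForm
open P2MW.S_ModularForm_heckeT_slash_eq_self_of_mem_Gamma0.ModularForm.HeckeSlashInvariance

variable {M : ℕ} [NeZero M] {h F : ℍ → ℂ} {p : ℕ} [Fact p.Prime]

/-- (H1), with the Hecke operator on functions written as the sum over `heckeRepOne`. -/
theorem PrimOne.heckeAll (hpM : Nat.Coprime p M) (hF : PrimOne M h F) :
    ∃ hG : PrimOne M (∑ x : OnePoint (ZMod p), h ∣[(2 : ℤ)] heckeRepOne M hpM x)
        (fun z => ∑ x : OnePoint (ZMod p), F (heckeRepOne M hpM x • z)),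
      hG.equiv.periodHom = heckeAllOne hpM ℂ hF.equiv.periodHom := by
  refine ⟨hF.heckeCore hpM, AddMonoidHom.ext fun γ => ?_⟩
  obtain ⟨γ, rfl⟩ := Additive.ofMul.surjective γ
  rw [PrimOne.heckeCore_period hpM hF γ, heckeAllOne_apply]

/-- (H2) in terms of `diamondAllOne`: the periods of `h ∣ σ_d`. -/
theorem PrimOne.diamondAll (d : (ZMod M)ˣ) (hF : PrimOne M h F) :
    ∃ hG : PrimOne M (h ∣[(2 : ℤ)] ((diaRep M d : Gamma0 M) : SL(2, ℤ)))
        (fun z => F (((diaRep M d : Gamma0 M) : SL(2, ℤ)) • z)),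
      hG.equiv.periodHom = diamondAllOne M d ℂ hF.equiv.periodHom := by
  obtain ⟨hG, hper⟩ := PrimOne.diamond (diaRep M d) hF
  refine ⟨hG, AddMonoidHom.ext fun γ => ?_⟩
  obtain ⟨γ, rfl⟩ := Additive.ofMul.surjective γ
  rw [hper γ, diamondAllOne_apply]

end Fermat.Agent.S48WA5
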