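/-
S48 wall (W), seat A5 (helper21), part RED, step 1: period classes in `ℂ ⊗ Hom_par(Γ₁(M), ℤ)`.

`IsPeriodOf M v h`: the class `v ∈ ℂ ⊗ L` is the period homomorphism of (a primitive of) the
function `h`.  Linearity, uniqueness in both directions, and compatibility with `T_p` and `⟨d⟩`.
-/
import Mathlib
import Fermat.Agent.S48.W.A5.Lattice
import Fermat.Agent.S48.W.A5.Period
import Fermat.Agent.S48.W.A5.Forms
import Fermat.Agent.S48.W.A5.HeckePeriodAll

set_option autoImplicit false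
set_option linter.style.haveILetI false

noncomputable section

namespace Fermat.Agent.S48WA5

open CongruenceSubgroup Matrix.SpecialLinearGroup ModularCurve.Period UpperHalfPlane Filter
open scoped MatrixGroups Topology Manifold ModularForm TensorProduct
open P2MW.S_ModularForm_heckeT_slash_eq_self_of_mem_Gamma0.ModularForm.HeckeSlashInvariance

/-- `v` is the period class of the function `h`. -/
def IsPeriodOf (M : ℕ) [NeZero M] (v : ℂ ⊗[ℤ] HomParOne M) (h : ℍ → ℂ) : Prop :=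
  ∃ (F : ℍ → ℂ) (hF : PrimOne M h F), compMapOne M v = hF.equiv.periodHom

variable {M : ℕ} [NeZero M] {v v' : ℂ ⊗[ℤ] HomParOne M} {h h' : ℍ → ℂ}

theorem isPeriodOf_zero (M : ℕ) [NeZero M] : IsPeriodOf M 0 0 := by
  refine ⟨0, primOne_zero M, ?_⟩
  rw [map_zero]
  refine AddMonoidHom.ext fun γ => ?_
  obtain ⟨γ, rfl⟩ := Additive.ofMul.surjective γ
  simp [IsEquivariantPrimitive.periodHom_apply, IsEquivariantPrimitive.period]

theorem IsPeriodOf.add (hv : IsPeriodOf M v h) (hv' : IsPeriodOf M v' h') :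
    IsPeriodOf M (v + v') (h + h') := by
  obtain ⟨F, hF, e⟩ := hv
  obtain ⟨F', hF', e'⟩ := hv'
  exact ⟨F + F', hF.add hF', by rw [map_add, e, e', PrimOne.periodHom_add hF hF']⟩

theorem IsPeriodOf.smul (c : ℂ) (hv : IsPeriodOf M v h) : IsPeriodOf M (c • v) (c • h) := by
  obtain ⟨F, hF, e⟩ := hv
  refine ⟨c • F, hF.smul c, ?_⟩
  rw [map_smul, e]
  refine AddMonoidHom.ext fun γ => ?_
  rw [PrimOne.periodHom_smul c hF γ]
  rfl

theorem IsPeriodOf.neg (hv : IsPeriodOf M v h) : IsPeriodOf M (-v) (-h) := by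
  have := hv.smul (-1)
  simpa using this

theorem IsPeriodOf.sub (hv : IsPeriodOf M v h) (hv' : IsPeriodOf M v' h') :
    IsPeriodOf M (v - v') (h - h') := by
  rw [sub_eq_add_neg, sub_eq_add_neg]
  exact hv.add hv'.neg

/-- the form is determined by the class. -/
theorem IsPeriodOf.form_eq (hv : IsPeriodOf M v h) (hv' : IsPeriodOf M v h') : h = h' := by
  obtain ⟨F, hF, e⟩ := hv.sub hv'
  rw [sub_self, map_zero] at e
  exact sub_eq_zero.mp (hF.eq_zero_of_periodHom_eq_zero e.symm)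

/-- the class is determined by the form. -/
theorem IsPeriodOf.class_eq (hv : IsPeriodOf M v h) (hv' : IsPeriodOf M v' h) : v = v' := by
  obtain ⟨F, hF, e⟩ := hv
  obtain ⟨F', hF', e'⟩ := hv'
  apply compMapOne_injective M
  rw [e, e', hF.periodHom_eq hF']

/-- every function with a primitive has a period class. -/
theorem exists_isPeriodOf {F : ℍ → ℂ} (hF : PrimOne M h F) :
    ∃ v : ℂ ⊗[ℤ] HomParOne M, IsPeriodOf M v h := by
  obtain ⟨v, hv⟩ := mem_range_compMapOne M hF.isParabolicHom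
  exact ⟨v, F, hF, hv⟩

/-- `T_p` on classes and on forms. -/
theorem IsPeriodOf.hecke (p : Nat.Primes) (hpM : Nat.Coprime (p : ℕ) M)
    (hv : IsPeriodOf M v h) :
    haveI : Fact (p : ℕ).Prime := ⟨p.2⟩
    IsPeriodOf M ((heckeHomOne M p).baseChange ℂ v) (heckeFunOne M hpM h) := by
  haveI : Fact (p : ℕ).Prime := ⟨p.2⟩
  obtain ⟨F, hF, e⟩ := hv
  obtain ⟨hG, hGe⟩ := hF.heckeAll hpM
  exact ⟨_, hG, by rw [compMapOne_heckeHomOne p hpM, e, hGe]⟩

/-- `⟨d⟩` on classes and on forms. -/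
theorem IsPeriodOf.diamond (d : (ZMod M)ˣ) (hv : IsPeriodOf M v h) :
    IsPeriodOf M ((diamondHomOne M d).baseChange ℂ v)
      (h ∣[(2 : ℤ)] ((diaRep M d : Gamma0 M) : SL(2, ℤ))) := by
  obtain ⟨F, hF, e⟩ := hv
  obtain ⟨hG, hGe⟩ := hF.diamond (diaRep M d)
  refine ⟨_, hG, ?_⟩
  rw [compMapOne_diamondHomOne, e]
  refine AddMonoidHom.ext fun γ => ?_
  obtain ⟨γ, rfl⟩ := Additive.ofMul.surjective γ
  rw [diamondAllOne_apply, hGe]

end Fermat.Agent.S48WA5
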