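/-
S48 wall (W), seat A5 (helper21), part RED: the REDUCTION LEMMA in the classical conventions.

`a5_exists_classical_eigenclass`: for a mod-`φ` eigenvector `e : ModEigen M k φ` (`char k = ℓ`) there
is `0 ≠ x ∈ k ⊗ Hom_par(Γ₁(M), ℤ)` with `T_p x = e.t p • x` (`p ∤ M`) and `⟨d⟩ x = φ (χ d) • x`,
for the CLASSICAL operators `S48WA5.heckeHomOne`, `S48WA5.diamondHomOne` (Hecke.lean).
-/
import Mathlib
import Fermat.Agent.S48.W.A5.RedPeriod
import Fermat.Agent.S48.W.A5.Alg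
import Fermat.Agent.S48.W.Interfaces

set_option autoImplicit false
set_option linter.style.haveILetI false

noncomputable section

namespace Fermat.Agent.S48WA5

open CongruenceSubgroup Matrix.SpecialLinearGroup ModularCurve.Period UpperHalfPlane Filter
open Fermat.Agent.S48W
open scoped MatrixGroups Topology Manifold ModularForm TensorProduct
open P2MW.S_ModularForm_heckeT_slash_eq_self_of_mem_Gamma0.ModularForm.HeckeSlashInvariance

local notation "Zb" => integralClosure ℤ ℂ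

/-! ### the kernel of `φ` is maximal -/

theorem red_ker_isMaximal {k : Type*} [Field k] (φ : Zb →+* k) (ℓ : ℕ) (hℓ : ℓ.Prime)
    [CharP k ℓ] : (RingHom.ker φ).IsMaximal := by
  haveI : (RingHom.ker φ).IsPrime := RingHom.ker_isPrime φ
  apply Ideal.isMaximal_of_isIntegral_of_isMaximal_comap (R := ℤ) (RingHom.ker φ)
  rw [RingHom.comap_ker]
  have h1 : φ.comp (algebraMap ℤ Zb) = algebraMap ℤ k := RingHom.ext_int _ _
  rw [h1, CharP.ker_intAlgebraMap_eq_span ℓ]
  have hprime : Prime (ℓ : ℤ) := Nat.prime_iff_prime_int.mp hℓ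
  exact PrincipalIdealRing.isMaximal_of_irreducible hprime.irreducible

/-! ### the index set and the operators -/

/-- the index set: primes `p ∤ M` and diamonds. -/
abbrev RedIdx (M : ℕ) : Type := {p : Nat.Primes // Nat.Coprime (p : ℕ) M} ⊕ (ZMod M)ˣ

/-- the operators on the lattice. -/
def redT (M : ℕ) [NeZero M] : RedIdx M → HomParOne M →ₗ[ℤ] HomParOne M
  | Sum.inl p => heckeHomOne M p.1
  | Sum.inr d => diamondHomOne M d

/-- the operators on functions, on the `χ`-eigenspace. -/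
def redOp (M : ℕ) [NeZero M] (χ : (ZMod M)ˣ → ℂ) : RedIdx M → (ℍ → ℂ) → (ℍ → ℂ)
  | Sum.inl p, h => @heckeFunOne M _ (p.1 : ℕ) ⟨p.1.2⟩ p.2 h
  | Sum.inr d, h => χ d • h

variable {M : ℕ} [NeZero M] {χ : (ZMod M)ˣ → ℂ} {h h' : ℍ → ℂ}

theorem IsNebCusp.neg (hh : IsNebCusp M χ h) : IsNebCusp M χ (-h) := by
  have := hh.smul (-1)
  simpa using this

theorem IsNebCusp.sub (hh : IsNebCusp M χ h) (hh' : IsNebCusp M χ h') :
    IsNebCusp M χ (h - h') := by
  rw [sub_eq_add_neg]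
  exact hh.add hh'.neg

theorem IsNebCusp.qCoeff_sub (hh : IsNebCusp M χ h) (hh' : IsNebCusp M χ h') (n : ℕ) :
    ModularFormClass.qCoeff (h - h') n =
      ModularFormClass.qCoeff h n - ModularFormClass.qCoeff h' n := by
  have h1 : h - h' = h + (-1 : ℂ) • h' := by
    rw [sub_eq_add_neg]; simp
  rw [h1, hh.qCoeff_add (hh'.smul (-1)), hh'.qCoeff_smul]
  ring

theorem redOp_isNebCusp (i : RedIdx M) (hh : IsNebCusp M χ h) : IsNebCusp M χ (redOp M χ i h) := by
  rcases i with p | d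
  · haveI : Fact (p.1 : ℕ).Prime := ⟨p.1.2⟩
    exact hh.hecke p.2
  · exact hh.smul (χ d)

theorem redOp_isPeriodOf (i : RedIdx M) (hh : IsNebCusp M χ h) {v : ℂ ⊗[ℤ] HomParOne M}
    (hv : IsPeriodOf M v h) : IsPeriodOf M ((redT M i).baseChange ℂ v) (redOp M χ i h) := by
  rcases i with p | d
  · exact hv.hecke p.1 p.2
  · have h1 := hv.diamond d
    rw [hh.slash_of_map (diaRep M d) d (diaRep_spec M d)] at h1
    exact h1

/-- `T_p` is homogeneous on forms with nebentypus. -/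
theorem IsNebCusp.heckeFunOne_smul {p : ℕ} [Fact p.Prime] (hpM : Nat.Coprime p M) (c : ℂ)
    (hh : IsNebCusp M χ h) : heckeFunOne M hpM (c • h) = c • heckeFunOne M hpM h := by
  rw [(hh.smul c).heckeFunOne_eq hpM, hh.heckeFunOne_eq hpM, ModularForm.heckeU_smul,
    ModularForm.smul_slash, ModularForm.σ_heckeDiagMatrix, ContinuousAlgEquiv.refl_apply,
    smul_add, smul_comm c]

theorem redOp_comm (i i' : RedIdx M) (hh : IsNebCusp M χ h) :
    redOp M χ i (redOp M χ i' h) = redOp M χ i' (redOp M χ i h) := by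
  rcases i with p | d <;> rcases i' with p' | d'
  · haveI : Fact (p.1 : ℕ).Prime := ⟨p.1.2⟩
    haveI : Fact (p'.1 : ℕ).Prime := ⟨p'.1.2⟩
    exact (hh.heckeFunOne_comm p'.2 p.2)
  · haveI : Fact (p.1 : ℕ).Prime := ⟨p.1.2⟩
    exact hh.heckeFunOne_smul p.2 (χ d')
  · haveI : Fact (p'.1 : ℕ).Prime := ⟨p'.1.2⟩
    exact (hh.heckeFunOne_smul p'.2 (χ d)).symm
  · show χ d • χ d' • h = χ d' • χ d • h
    rw [smul_comm]

/-! ### coefficients in an ideal -/

/-- all `q`-coefficients of `h` lie in the ideal `I` of `ℤ̄`. -/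
def CoeffIn (I : Ideal Zb) (h : ℍ → ℂ) : Prop :=
  ∀ n, ∃ b : Zb, b ∈ I ∧ ModularFormClass.qCoeff h n = (b : ℂ)

theorem CoeffIn.add {I : Ideal Zb} (hh : IsNebCusp M χ h) (hh' : IsNebCusp M χ h')
    (hc : CoeffIn I h) (hc' : CoeffIn I h') : CoeffIn I (h + h') := by
  intro n
  obtain ⟨b, hb, e⟩ := hc n
  obtain ⟨b', hb', e'⟩ := hc' n
  exact ⟨b + b', I.add_mem hb hb', by rw [hh.qCoeff_add hh', e, e']; push_cast; rfl⟩

theorem CoeffIn.smul {I : Ideal Zb} (hh : IsNebCusp M χ h) (hc : CoeffIn I h) (a : Zb) :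
    CoeffIn I ((a : ℂ) • h) := by
  intro n
  obtain ⟨b, hb, e⟩ := hc n
  exact ⟨a * b, I.mul_mem_left a hb, by rw [hh.qCoeff_smul, e]; push_cast; rfl⟩

theorem CoeffIn.neg {I : Ideal Zb} (hh : IsNebCusp M χ h) (hc : CoeffIn I h) :
    CoeffIn I (-h) := by
  have := CoeffIn.smul hh hc (-1)
  simpa using this

theorem CoeffIn.hecke {I : Ideal Zb} {p : ℕ} [Fact p.Prime] (hpM : Nat.Coprime p M)
    (a : Zb) (ha : (a : ℂ) = χ (ZMod.unitOfCoprime p hpM))
    (hh : IsNebCusp M χ h) (hc : CoeffIn I h) : CoeffIn I (heckeFunOne M hpM h) := by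
  intro n
  obtain ⟨b, hb, e⟩ := hc (p * n)
  by_cases hpn : p ∣ n
  · obtain ⟨b', hb', e'⟩ := hc (n / p)
    refine ⟨b + (p : Zb) * a * b', I.add_mem hb (I.mul_mem_left _ hb'), ?_⟩
    rw [hh.qCoeff_heckeFunOne hpM, if_pos hpn, e, e', ← ha]
    push_cast
    rfl
  · refine ⟨b, hb, ?_⟩
    rw [hh.qCoeff_heckeFunOne hpM, if_neg hpn, e, mul_zero, add_zero]

/-! ### the data of a mod-`φ` eigenvector -/

section Main

variable {k : Type} [Field k] {φ : Zb →+* k}

/-- the complex valued nebentypus of `e`. -/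
def redChi (e : ModEigen M k φ) (d : (ZMod M)ˣ) : ℂ := (((e.χ d : Zbˣ) : Zb) : ℂ)

theorem red_isNebCusp (e : ModEigen M k φ) : IsNebCusp M (redChi e) e.g :=
  isNebCusp_of_cuspForm e.g (redChi e) (fun γ hγ d hd z => e.neb γ hγ d hd z)

theorem red_coeff (e : ModEigen M k φ) (n : ℕ) :
    ModularFormClass.qCoeff (e.g : ℍ → ℂ) n = (e.c n : ℂ) := (e.hc n).symm

/-- the eigenvalues lift to `ℤ̄`. -/
theorem red_exists_lift (hφ : (RingHom.ker φ).IsMaximal) (e : ModEigen M k φ) (p : Nat.Primes)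
    (hpM : Nat.Coprime (p : ℕ) M) : ∃ a : Zb, φ a = e.t p := by
  obtain ⟨n, hn⟩ := e.ne
  have hmem : e.c n ∉ RingHom.ker φ := fun hc => hn (RingHom.mem_ker.mp hc)
  obtain ⟨u, i, hi, hui⟩ := hφ.exists_inv hmem
  have h1 : φ u * φ (e.c n) = 1 := by
    have := congrArg φ hui
    rw [map_add, map_mul, RingHom.mem_ker.mp hi, add_zero, map_one] at this
    exact this
  have h2 := e.eig p hpM n
  refine ⟨u * (e.c (p * n) + ((p : ℕ) : Zb) * (e.χ (ZMod.unitOfCoprime p hpM) : Zb) *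
    (if (p : ℕ) ∣ n then e.c (n / p) else 0)), ?_⟩
  rw [map_mul, map_add, map_mul, map_mul, map_natCast, apply_ite φ, map_zero, h2,
    ← mul_assoc, mul_comm (φ u), mul_assoc, h1, mul_one]

/-- the space of period classes of forms with the nebentypus of `e`. -/
def redV (e : ModEigen M k φ) : Submodule ℂ (ℂ ⊗[ℤ] HomParOne M) where
  carrier := {v | ∃ h, IsNebCusp M (redChi e) h ∧ IsPeriodOf M v h}
  add_mem' := by
    rintro v v' ⟨h, hh, hv⟩ ⟨h', hh', hv'⟩
    exact ⟨h + h', hh.add hh', hv.add hv'⟩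
  zero_mem' := ⟨0, isNebCusp_zero M _, isPeriodOf_zero M⟩
  smul_mem' := by
    rintro c v ⟨h, hh, hv⟩
    exact ⟨c • h, hh.smul c, hv.smul c⟩

/-- the period classes of forms with nebentypus and coefficients in `ker φ`. -/
def redΛ (e : ModEigen M k φ) : AddSubgroup (ℂ ⊗[ℤ] HomParOne M) where
  carrier := {v | ∃ h, IsNebCusp M (redChi e) h ∧ IsPeriodOf M v h ∧ CoeffIn (RingHom.ker φ) h}
  add_mem' := by
    rintro v v' ⟨h, hh, hv, hc⟩ ⟨h', hh', hv', hc'⟩
    exact ⟨h + h', hh.add hh', hv.add hv', CoeffIn.add hh hh' hc hc'⟩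
  zero_mem' := by
    refine ⟨0, isNebCusp_zero M _, isPeriodOf_zero M, fun n => ⟨0, Ideal.zero_mem _, ?_⟩⟩
    have := (isNebCusp_zero M (redChi e)).qCoeff_smul 0 n
    simpa using this
  neg_mem' := by
    rintro v ⟨h, hh, hv, hc⟩
    exact ⟨-h, hh.neg, hv.neg, CoeffIn.neg hh hc⟩

/-- **the reduction lemma, classical conventions.** -/
theorem a5_exists_classical_eigenclass (ℓ : ℕ) (hℓ : ℓ.Prime) [CharP k ℓ]
    (e : ModEigen M k φ) :
    ∃ x : k ⊗[ℤ] HomParOne M, x ≠ 0 ∧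
      (∀ (p : Nat.Primes) (_ : Nat.Coprime (p : ℕ) M),
        (heckeHomOne M p).baseChange k x = e.t p • x) ∧
      ∀ d : (ZMod M)ˣ, (diamondHomOne M d).baseChange k x = φ ((e.χ d : Zbˣ) : Zb) • x := by
  classical
  have hφ : (RingHom.ker φ).IsMaximal := red_ker_isMaximal φ ℓ hℓ
  -- the lifts of the eigenvalues
  let a : RedIdx M → Zb := fun i =>
    match i with
    | Sum.inl p => (red_exists_lift hφ e p.1 p.2).choose
    | Sum.inr d => ((e.χ d : Zbˣ) : Zb)
  have ha : ∀ (p : Nat.Primes) (hpM : Nat.Coprime (p : ℕ) M), φ (a (Sum.inl ⟨p, hpM⟩)) = e.t p :=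
    fun p hpM => (red_exists_lift hφ e p hpM).choose_spec
  have hg := red_isNebCusp e
  obtain ⟨F, hF⟩ := hg.exists_primOne
  obtain ⟨ω, hω⟩ := exists_isPeriodOf hF
  obtain ⟨x, hx0, hx⟩ := a5_exists_modEigenvector (redT M) (algebraMap Zb ℂ) φ a (redV e)
    (redΛ e) ω hφ
    (by
      rintro i v ⟨h, hh, hv⟩
      exact ⟨_, redOp_isNebCusp i hh, redOp_isPeriodOf i hh hv⟩)
    (by
      rintro i i' v ⟨h, hh, hv⟩
      have h1 := redOp_isPeriodOf i (redOp_isNebCusp i' hh) (redOp_isPeriodOf i' hh hv)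
      have h2 := redOp_isPeriodOf i' (redOp_isNebCusp i hh) (redOp_isPeriodOf i hh hv)
      rw [redOp_comm i i' hh] at h1
      exact h1.class_eq h2)
    (by
      rintro i v ⟨h, hh, hv, hc⟩
      refine ⟨_, redOp_isNebCusp i hh, redOp_isPeriodOf i hh hv, ?_⟩
      rcases i with p | d
      · haveI : Fact (p.1 : ℕ).Prime := ⟨p.1.2⟩
        exact CoeffIn.hecke p.2 ((e.χ (ZMod.unitOfCoprime p.1 p.2) : Zbˣ) : Zb) rfl hh hc
      · exact CoeffIn.smul hh hc ((e.χ d : Zbˣ) : Zb))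
    (by
      rintro b v ⟨h, hh, hv, hc⟩
      exact ⟨_, hh.smul _, hv.smul _, CoeffIn.smul hh hc b⟩)
    ⟨_, hg, hω⟩
    (by
      intro i
      rcases i with p | d
      · haveI : Fact (p.1 : ℕ).Prime := ⟨p.1.2⟩
        have hT := redOp_isPeriodOf (Sum.inl p) hg hω
        have hTn := redOp_isNebCusp (Sum.inl p) hg
        refine ⟨_, hTn.sub (hg.smul _), hT.sub (hω.smul _), fun n => ?_⟩
        refine ⟨e.c (p.1 * n) + ((p.1 : ℕ) : Zb) * ((e.χ (ZMod.unitOfCoprime p.1 p.2) : Zbˣ) : Zb) *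
          (if (p.1 : ℕ) ∣ n then e.c (n / p.1) else 0) - a (Sum.inl p) * e.c n, ?_, ?_⟩
        · rw [RingHom.mem_ker, map_sub, map_add, map_mul, map_mul, map_mul, map_natCast,
            apply_ite φ, map_zero, ha p.1 p.2, e.eig p.1 p.2 n, sub_self]
        · rw [hTn.qCoeff_sub (hg.smul _), hg.qCoeff_smul]
          show ModularFormClass.qCoeff (heckeFunOne M p.2 (e.g : ℍ → ℂ)) n - _ = _
          rw [hg.qCoeff_heckeFunOne p.2, red_coeff, red_coeff, red_coeff]
          simp only [redChi]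
          split_ifs <;> push_cast <;> rfl
      · have hT := redOp_isPeriodOf (Sum.inr d) hg hω
        have h2 : IsPeriodOf M ((algebraMap Zb ℂ) (a (Sum.inr d)) • ω) (redOp M (redChi e) (Sum.inr d) e.g) :=
          hω.smul _
        rw [hT.class_eq h2, sub_self]
        exact (redΛ e).zero_mem)
    (by
      rintro b ⟨h, hh, hv, hc⟩
      have h1 : IsPeriodOf M ((algebraMap Zb ℂ) b • ω) ((algebraMap Zb ℂ) b • (e.g : ℍ → ℂ)) :=
        hω.smul _
      have h2 := hv.form_eq h1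
      obtain ⟨n, hn⟩ := e.ne
      obtain ⟨b', hb', e'⟩ := hc n
      rw [h2, hg.qCoeff_smul, red_coeff] at e'
      have h3 : b * e.c n = b' := by
        apply Subtype.val_injective
        rw [← e']
        rfl
      have h4 : φ b * φ (e.c n) = 0 := by
        rw [← map_mul, h3]
        exact RingHom.mem_ker.mp hb'
      rcases mul_eq_zero.mp h4 with h5 | h5
      · exact h5
      · exact absurd h5 hn)
  refine ⟨x, hx0, fun p hpM => ?_, fun d => ?_⟩
  · have := hx (Sum.inl ⟨p, hpM⟩)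
    rw [ha p hpM] at this
    exact this
  · exact hx (Sum.inr d)

end Main

end Fermat.Agent.S48WA5
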