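/-
S48 wall (W), seat A5 (helper21), FINAL: `PeriodEigenOne M` (the (A5) interface of block A).

From the reduction lemma in the classical conventions (`a5_exists_classical_eigenclass`,
Reduction.lean) and the bridges of seat LAT (`S48WA.heckeHomOne_eq_lat`,
`S48WA.diamondHomOne_eq_lat`): `T_p^A = T_p ∘ ⟨p⁻¹⟩`, `δ_d^A = ⟨d⁻¹⟩`.
-/
import Mathlib
import Fermat.Agent.S48.W.A5.Reduction
import Fermat.Agent.S48.W.A.Lattice

set_option autoImplicit false
set_option linter.style.haveILetI false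

noncomputable section

namespace Fermat.Agent.S48WA5

open Fermat.Agent.S48W
open scoped TensorProduct

/-- **(A5)** the adjoint system of a mod-`φ` eigenvector occurs in `k ⊗ Hom_par(Γ₁(M), ℤ)`. -/
theorem a5_periodEigenOne (M : ℕ) [NeZero M] : Fermat.Agent.S48WA.PeriodEigenOne M := by
  intro ℓ hℓ k _ _ φ e
  obtain ⟨x, hx0, hT, hD⟩ := a5_exists_classical_eigenclass (M := M) (φ := φ) ℓ hℓ e
  have hinv : ∀ d : (ZMod M)ˣ,
      φ (((e.χ d⁻¹ : (integralClosure ℤ ℂ)ˣ)) : integralClosure ℤ ℂ)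
        = φ ((e.χ d)⁻¹ : (integralClosure ℤ ℂ)ˣ) := by
    intro d
    rw [map_inv]
  refine ⟨x, hx0, fun p hpM _ => ?_, fun d => ?_⟩
  · rw [Fermat.Agent.S48WA.heckeHomOne_eq_lat p hpM, LinearMap.baseChange_comp,
      LinearMap.comp_apply, hD, map_smul, hT p hpM, smul_smul, hinv, mul_comm]
  · rw [Fermat.Agent.S48WA.diamondHomOne_eq_lat d, hD, hinv]

end Fermat.Agent.S48WA5
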