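/-
S48 wall (W), seat A5 (helper21), part ALG, linear algebra core.

`a5la_exists_common_eigenvector`: let `R` be a commutative family of pairs (operator, scalar) on a
finite dimensional vector space `W` over a field `k` which is a `k`-subalgebra of
`End_k(W) × k`, such that for every `(u, β) ∈ R` the scalar `β` is an eigenvalue of `u`.
Then there is a common eigenvector: `w ≠ 0` with `u w = β w` for all `(u, β) ∈ R`.
-/
import Mathlib

set_option autoImplicit false

noncomputable section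

namespace Fermat.Agent.S48WA5

open Polynomial Module

variable {k W : Type*} [Field k] [AddCommGroup W] [Module k W]

/-- polynomials in an element of a subalgebra of `End_k(W) × k`. -/
theorem a5la_aeval_mem (R : Subalgebra k (Module.End k W × k)) {r : Module.End k W × k}
    (hr : r ∈ R) (P : k[X]) : (aeval r.1 P, P.eval r.2) ∈ R := by
  have h1 : aeval r P ∈ R := by
    have := (aeval (⟨r, hr⟩ : R) P).2
    rwa [Polynomial.aeval_subalgebra_coe] at this
  rw [Polynomial.aeval_prod_apply] at h1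
  have h2 : aeval r.2 P = P.eval r.2 := by
    rw [Polynomial.aeval_def, Polynomial.eval₂_eq_eval_map]
    simp
  rwa [h2] at h1

/-- a nilpotent endomorphism has a kernel vector in every nonzero stable vector's orbit. -/
theorem a5la_exists_ker_of_pow {n : Module.End k W} {a : ℕ} {w : W} (hw : w ≠ 0)
    (hn : (n ^ a) w = 0) : ∃ m : ℕ, (n ^ m) w ≠ 0 ∧ n ((n ^ m) w) = 0 := by
  classical
  have hex : ∃ m : ℕ, (n ^ m) w = 0 := ⟨a, hn⟩
  set m := Nat.find hex with hm
  have hm0 : (n ^ m) w = 0 := Nat.find_spec hex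
  have hmpos : m ≠ 0 := by
    intro h0
    rw [h0, pow_zero] at hm0
    exact hw hm0
  obtain ⟨m', hm'⟩ := Nat.exists_eq_succ_of_ne_zero hmpos
  refine ⟨m', ?_, ?_⟩
  · exact Nat.find_min hex (by omega)
  · rw [← Module.End.mul_apply, ← pow_succ']
    have : m' + 1 = m := by omega
    rw [this]
    exact hm0

variable [FiniteDimensional k W]

theorem a5la_aux (R : Subalgebra k (Module.End k W × k))
    (hcomm : ∀ r ∈ R, ∀ r' ∈ R, r.1 * r'.1 = r'.1 * r.1) :
    ∀ (d : ℕ) (U : Submodule k W), Module.finrank k U = d →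
      (∀ r ∈ R, ∀ u ∈ U, r.1 u ∈ U) →
      (∀ r ∈ R, ∃ w ∈ U, w ≠ 0 ∧ r.1 w = r.2 • w) →
      ∃ w ∈ U, w ≠ 0 ∧ ∀ r ∈ R, r.1 w = r.2 • w := by
  intro d
  induction d using Nat.strong_induction_on with
  | _ d ih =>
  intro U hd hstab heig
  by_cases hall : ∀ r ∈ R, ∀ u ∈ U, r.1 u = r.2 • u
  · obtain ⟨w, hwU, hw0, -⟩ := heig 1 R.one_mem
    exact ⟨w, hwU, hw0, fun r hr => hall r hr w hwU⟩
  rw [not_forall] at hall
  obtain ⟨r₀, hall⟩ := hall
  rw [Classical.not_imp] at hall
  obtain ⟨hr₀, hall⟩ := hall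
  rw [not_forall] at hall
  obtain ⟨u₀, hall⟩ := hall
  rw [Classical.not_imp] at hall
  obtain ⟨hu₀, hne⟩ := hall
  -- the element `ν = r₀ - r₀.2` of the kernel of the character
  set ν : Module.End k W × k := r₀ - algebraMap k _ r₀.2 with hν
  have hνR : ν ∈ R := R.sub_mem hr₀ (R.algebraMap_mem _)
  have hν2 : ν.2 = 0 := by simp [hν]
  have hν1 : ν.1 = r₀.1 - algebraMap k (Module.End k W) r₀.2 := by simp [hν]
  obtain ⟨n, hn⟩ : ∃ n : Module.End k W, n = ν.1 := ⟨_, rfl⟩
  have hnu₀ : n u₀ ≠ 0 := by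
    rw [hn, hν1, LinearMap.sub_apply, Module.algebraMap_end_apply]
    exact sub_ne_zero.mpr hne
  -- an annihilating polynomial
  set P : k[X] := minpoly k n with hP
  have hPint : IsIntegral k n := Algebra.IsIntegral.isIntegral n
  have hP0 : P ≠ 0 := minpoly.ne_zero hPint
  have hPn : aeval n P = 0 := minpoly.aeval k n
  -- `0` is a root
  obtain ⟨w₁, -, hw₁0, hw₁⟩ := heig ν hνR
  rw [hν2, zero_smul, ← hn] at hw₁
  have hroot : P.IsRoot 0 := by
    have hev : n.HasEigenvector 0 w₁ :=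
      ⟨Module.End.mem_eigenspace_iff.mpr (by rw [zero_smul]; exact hw₁), hw₁0⟩
    have h1 := Module.End.aeval_apply_of_hasEigenvector (p := P) hev
    rw [hPn, LinearMap.zero_apply] at h1
    rcases smul_eq_zero.mp h1.symm with h2 | h2
    · exact h2
    · exact absurd h2 hw₁0
  obtain ⟨Q, hPQ, hQ⟩ := Polynomial.exists_eq_pow_rootMultiplicity_mul_and_not_dvd P hP0 0
  set a := Polynomial.rootMultiplicity 0 P with ha
  have hapos : 0 < a := (Polynomial.rootMultiplicity_pos hP0).mpr hroot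
  rw [map_zero, sub_zero] at hPQ hQ
  have hcop : IsCoprime (X ^ a : k[X]) Q :=
    ((Polynomial.irreducible_X).coprime_iff_not_dvd.mpr hQ).pow_left
  obtain ⟨A, B, hAB⟩ := hcop
  -- the idempotents
  obtain ⟨e₂, he₂⟩ : ∃ e : Module.End k W, e = aeval n (A * X ^ a) := ⟨_, rfl⟩
  obtain ⟨e₁, he₁⟩ : ∃ e : Module.End k W, e = aeval n (B * Q) := ⟨_, rfl⟩
  obtain ⟨ε₂, hε₂⟩ : ∃ ε : Module.End k W × k, ε = (e₂, 0) := ⟨_, rfl⟩
  obtain ⟨ε₁, hε₁⟩ : ∃ ε : Module.End k W × k, ε = (e₁, 1) := ⟨_, rfl⟩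
  have hε₂R : ε₂ ∈ R := by
    have h := a5la_aeval_mem R hνR (A * X ^ a)
    rw [hν2, ← hn, ← he₂] at h
    have h0 : (A * X ^ a).eval (0 : k) = 0 := by
      simp only [Polynomial.eval_mul, Polynomial.eval_pow, Polynomial.eval_X]
      rw [zero_pow hapos.ne', mul_zero]
    rw [h0, ← hε₂] at h
    exact h
  have hε₁R : ε₁ ∈ R := by
    have h := a5la_aeval_mem R hνR (B * Q)
    rw [hν2, ← hn, ← he₁] at h
    have h0 : (B * Q).eval (0 : k) = 1 := by
      have h1 := congrArg (Polynomial.eval (0 : k)) hAB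
      simp only [Polynomial.eval_add, Polynomial.eval_mul, Polynomial.eval_pow,
        Polynomial.eval_X, Polynomial.eval_one] at h1
      rw [zero_pow hapos.ne', mul_zero, zero_add] at h1
      simp only [Polynomial.eval_mul]
      exact h1
    rw [h0, ← hε₁] at h
    exact h
  have hε₂1 : ε₂.1 = e₂ := by rw [hε₂]
  have hε₁1 : ε₁.1 = e₁ := by rw [hε₁]
  have hε₂2 : ε₂.2 = 0 := by rw [hε₂]
  have hε₁2 : ε₁.2 = 1 := by rw [hε₁]
  have hsum : e₂ + e₁ = 1 := by
    rw [he₂, he₁, ← map_add, hAB, map_one]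
  have hprod : e₂ * e₁ = 0 := by
    rw [he₂, he₁, ← map_mul]
    have : A * X ^ a * (B * Q) = A * B * P := by rw [hPQ]; ring
    rw [this, map_mul, hPn, mul_zero]
  have he₂e₂ : e₂ * e₂ = e₂ := by
    have h1 : e₂ * (e₂ + e₁) = e₂ := by rw [hsum, mul_one]
    rw [mul_add, hprod, add_zero] at h1
    exact h1
  have hna : n ^ a * e₁ = 0 := by
    have h1 : n ^ a = aeval n (X ^ a : k[X]) := by simp
    rw [h1, he₁, ← map_mul]
    have : X ^ a * (B * Q) = B * P := by rw [hPQ]; ring
    rw [this, map_mul, hPn, mul_zero]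
  have hce₂ : ∀ r ∈ R, e₂ * r.1 = r.1 * e₂ := fun r hr => by
    have := hcomm ε₂ hε₂R r hr
    rwa [hε₂1] at this
  have hcn : ∀ r ∈ R, n * r.1 = r.1 * n := fun r hr => by
    have := hcomm ν hνR r hr
    rwa [← hn] at this
  by_cases hA : ∃ u ∈ U, e₂ u ≠ 0
  · -- Case A: pass to `U ⊓ ker e₂`
    obtain ⟨u₁, hu₁U, hu₁⟩ := hA
    set U₁ : Submodule k W := U ⊓ LinearMap.ker e₂ with hU₁
    have hlt : U₁ < U := by
      refine lt_of_le_of_ne inf_le_left ?_
      intro heq
      have : u₁ ∈ U₁ := by rw [heq]; exact hu₁U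
      rw [hU₁, Submodule.mem_inf] at this
      exact hu₁ (LinearMap.mem_ker.mp this.2)
    have hfr : Module.finrank k U₁ < d := hd ▸ Submodule.finrank_lt_finrank_of_lt hlt
    have hstab₁ : ∀ r ∈ R, ∀ u ∈ U₁, r.1 u ∈ U₁ := by
      intro r hr u hu
      rw [hU₁, Submodule.mem_inf] at hu ⊢
      refine ⟨hstab r hr u hu.1, ?_⟩
      rw [LinearMap.mem_ker, ← Module.End.mul_apply, hce₂ r hr, Module.End.mul_apply,
        LinearMap.mem_ker.mp hu.2, map_zero]
    have heig₁ : ∀ r ∈ R, ∃ w ∈ U₁, w ≠ 0 ∧ r.1 w = r.2 • w := by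
      intro r hr
      set r'' : Module.End k W × k := r * ε₁ + algebraMap k _ (r.2 + 1) * ε₂ with hr''
      have hr''R : r'' ∈ R :=
        R.add_mem (R.mul_mem hr hε₁R) (R.mul_mem (R.algebraMap_mem _) hε₂R)
      have hr''2 : r''.2 = r.2 := by
        simp only [hr'', Prod.snd_add, Prod.snd_mul, hε₁2, hε₂2, mul_one, mul_zero, add_zero]
      have hr''1 : r''.1 = r.1 * e₁ + algebraMap k (Module.End k W) (r.2 + 1) * e₂ := by
        simp only [hr'', Prod.fst_add, Prod.fst_mul, hε₁1, hε₂1]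
        rfl
      obtain ⟨w, hwU, hw0, hw⟩ := heig r'' hr''R
      rw [hr''2, hr''1] at hw
      have hre : e₂ * (r.1 * e₁) = 0 := by
        rw [← mul_assoc, hce₂ r hr, mul_assoc, hprod, mul_zero]
      have h2 : e₂ w = 0 := by
        have h3 := congrArg e₂ hw
        rw [LinearMap.add_apply, map_add, ← Module.End.mul_apply, hre, LinearMap.zero_apply,
          zero_add, Module.End.mul_apply, Module.algebraMap_end_apply, map_smul,
          ← Module.End.mul_apply, he₂e₂, map_smul] at h3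
        have h4 : (r.2 + 1) • e₂ w - r.2 • e₂ w = 0 := sub_eq_zero.mpr h3
        rw [← sub_smul, add_sub_cancel_left, one_smul] at h4
        exact h4
      have h5 : e₁ w = w := by
        have := congrArg (fun f : Module.End k W => f w) hsum
        simp only [LinearMap.add_apply, Module.End.one_apply, h2, zero_add] at this
        exact this
      refine ⟨w, Submodule.mem_inf.mpr ⟨hwU, LinearMap.mem_ker.mpr h2⟩, hw0, ?_⟩
      rw [LinearMap.add_apply, Module.End.mul_apply, h5, Module.End.mul_apply, h2, map_zero,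
        add_zero] at hw
      exact hw
    obtain ⟨w, hwU₁, hw0, hw⟩ := ih _ hfr U₁ rfl hstab₁ heig₁
    exact ⟨w, (Submodule.mem_inf.mp hwU₁).1, hw0, hw⟩
  · -- Case B: `n` is nilpotent on `U`; pass to `U ⊓ ker n`
    rw [not_exists] at hA
    have hA' : ∀ u ∈ U, e₂ u = 0 := fun u hu => by
      by_contra h
      exact hA u ⟨hu, h⟩
    have hnil : ∀ u ∈ U, (n ^ a) u = 0 := by
      intro u hu
      have h1 : u = e₁ u := by
        have := congrArg (fun f : Module.End k W => f u) hsum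
        simp only [LinearMap.add_apply, Module.End.one_apply, hA' u hu, zero_add] at this
        exact this.symm
      rw [h1, ← Module.End.mul_apply, hna, LinearMap.zero_apply]
    set U₂ : Submodule k W := U ⊓ LinearMap.ker n with hU₂
    have hlt : U₂ < U := by
      refine lt_of_le_of_ne inf_le_left ?_
      intro heq
      have : u₀ ∈ U₂ := by rw [heq]; exact hu₀
      rw [hU₂, Submodule.mem_inf] at this
      exact hnu₀ (LinearMap.mem_ker.mp this.2)
    have hfr : Module.finrank k U₂ < d := hd ▸ Submodule.finrank_lt_finrank_of_lt hlt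
    have hstab₂ : ∀ r ∈ R, ∀ u ∈ U₂, r.1 u ∈ U₂ := by
      intro r hr u hu
      rw [hU₂, Submodule.mem_inf] at hu ⊢
      refine ⟨hstab r hr u hu.1, ?_⟩
      rw [LinearMap.mem_ker, ← Module.End.mul_apply, hcn r hr, Module.End.mul_apply,
        LinearMap.mem_ker.mp hu.2, map_zero]
    have hpowstab : ∀ m : ℕ, ∀ u ∈ U, (n ^ m) u ∈ U := by
      intro m
      induction m with
      | zero => intro u hu; simpa using hu
      | succ m ihm =>
        intro u hu
        rw [pow_succ', Module.End.mul_apply]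
        have h1 := hstab ν hνR _ (ihm u hu)
        rwa [← hn] at h1
    have hpowcomm : ∀ (m : ℕ) (r : Module.End k W × k), r ∈ R → r.1 * n ^ m = n ^ m * r.1 := by
      intro m r hr
      induction m with
      | zero => simp
      | succ m ihm =>
        rw [pow_succ, ← mul_assoc, ihm, mul_assoc, ← hcn r hr, ← mul_assoc]
    have heig₂ : ∀ r ∈ R, ∃ w ∈ U₂, w ≠ 0 ∧ r.1 w = r.2 • w := by
      intro r hr
      obtain ⟨w, hwU, hw0, hw⟩ := heig r hr
      obtain ⟨m, hm0, hm1⟩ := a5la_exists_ker_of_pow hw0 (hnil w hwU)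
      refine ⟨(n ^ m) w, Submodule.mem_inf.mpr ⟨hpowstab m w hwU, LinearMap.mem_ker.mpr hm1⟩,
        hm0, ?_⟩
      rw [← Module.End.mul_apply, hpowcomm m r hr, Module.End.mul_apply, hw, map_smul]
    obtain ⟨w, hwU₂, hw0, hw⟩ := ih _ hfr U₂ rfl hstab₂ heig₂
    exact ⟨w, (Submodule.mem_inf.mp hwU₂).1, hw0, hw⟩

/-- **common eigenvector** of a commutative algebra of operators with a character all of whose
values are eigenvalues. -/
theorem a5la_exists_common_eigenvector (R : Subalgebra k (Module.End k W × k))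
    (hcomm : ∀ r ∈ R, ∀ r' ∈ R, r.1 * r'.1 = r'.1 * r.1)
    (heig : ∀ r ∈ R, ∃ w : W, w ≠ 0 ∧ r.1 w = r.2 • w) :
    ∃ w : W, w ≠ 0 ∧ ∀ r ∈ R, r.1 w = r.2 • w := by
  obtain ⟨w, -, hw0, hw⟩ := a5la_aux R hcomm _ ⊤ rfl (fun _ _ _ _ => Submodule.mem_top)
    (fun r hr => by
      obtain ⟨w, hw0, hw⟩ := heig r hr
      exact ⟨w, Submodule.mem_top, hw0, hw⟩)
  exact ⟨w, hw0, hw⟩

end Fermat.Agent.S48WA5
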