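/-
S48 wall (W), seat A5 (helper21), part ALG, commutative core.

`a5c_exists_eigenvector_comm`: `L` a finite free `ℤ`-module with COMMUTING endomorphisms `T i`;
`O → C` and `φ : O ↠ k` ring homomorphisms (`k` a field); `Λ ⊆ C ⊗ L` a subgroup stable under the
`T i` and under `O`; `ω ∈ C ⊗ L` with `T i ω ≡ a i ω mod Λ` and `b ω ∈ Λ ⟹ φ b = 0`.
Then `k ⊗ L` contains a nonzero common eigenvector of the `T i` with eigenvalues `φ (a i)`.

Proof: the `O`-algebra `𝒮` of pairs `(X, β)`, `X` a matrix over `O` in the algebra generated by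
the `T i`, with `X Λ ⊆ Λ` and `X ω ≡ β ω mod Λ`.  Cayley-Hamilton over `O`: `φ β` is a root of
the characteristic polynomial of `X mod φ`.  Then `a5la_exists_common_eigenvector`.
-/
import Mathlib
import Fermat.Agent.S48.W.A5.AlgLA

set_option autoImplicit false

noncomputable section

namespace Fermat.Agent.S48WA5

open scoped TensorProduct
open Module Polynomial

section Rep

variable (L : Type*) [AddCommGroup L] [Module.Free ℤ L] [Module.Finite ℤ L]
variable {O S : Type*} [CommRing O] [CommRing S]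

open Classical in
/-- the action of matrices over `O` (in the chosen basis of `L`) on `S ⊗ L`, along `f : O → S`. -/
def a5c_rep (f : O →+* S) :
    Matrix (Free.ChooseBasisIndex ℤ L) (Free.ChooseBasisIndex ℤ L) O →+*
      Module.End S (S ⊗[ℤ] L) :=
  (Matrix.toLinAlgEquiv (Algebra.TensorProduct.basis S (Free.chooseBasis ℤ L))).toRingEquiv.toRingHom.comp
    f.mapMatrix

open Classical in
/-- the matrix over `O` of an endomorphism of `L`. -/
def a5c_mat (O : Type*) [CommRing O] (T : L →ₗ[ℤ] L) :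
    Matrix (Free.ChooseBasisIndex ℤ L) (Free.ChooseBasisIndex ℤ L) O :=
  (LinearMap.toMatrix (Free.chooseBasis ℤ L) (Free.chooseBasis ℤ L) T).map (Int.castRingHom O)

variable {L}

open Classical in
theorem a5c_rep_mat (f : O →+* S) (T : L →ₗ[ℤ] L) :
    a5c_rep L f (a5c_mat L O T) = T.baseChange S := by
  unfold a5c_rep a5c_mat
  simp only [RingHom.coe_comp, Function.comp_apply, RingHom.mapMatrix_apply, Matrix.map_map]
  have h1 : (⇑f ∘ ⇑(Int.castRingHom O)) = ⇑(algebraMap ℤ S) := by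
    funext n
    simp
  rw [h1, ← LinearMap.toMatrix_baseChange]
  exact Matrix.toLin_toMatrix _ _ _

open Classical in
theorem a5c_rep_algebraMap (f : O →+* S) (b : O) :
    a5c_rep L f (algebraMap O _ b) = f b • (1 : Module.End S (S ⊗[ℤ] L)) := by
  unfold a5c_rep
  simp only [RingHom.coe_comp, Function.comp_apply, RingHom.mapMatrix_apply]
  have h1 : ((algebraMap O (Matrix (Free.ChooseBasisIndex ℤ L) (Free.ChooseBasisIndex ℤ L) O)) b).map
      ⇑f = algebraMap S _ (f b) := by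
    ext i j
    simp only [Matrix.algebraMap_matrix_apply, Matrix.map_apply]
    split_ifs <;> simp
  rw [h1]
  change (Matrix.toLinAlgEquiv _) (algebraMap S _ (f b)) = _
  rw [AlgEquiv.commutes, Algebra.algebraMap_eq_smul_one]

open Classical in
theorem a5c_rep_charpoly (f : O →+* S) [Nontrivial S]
    (X : Matrix (Free.ChooseBasisIndex ℤ L) (Free.ChooseBasisIndex ℤ L) O) :
    LinearMap.charpoly (a5c_rep L f X) = X.charpoly.map f := by
  unfold a5c_rep
  simp only [RingHom.coe_comp, Function.comp_apply, RingHom.mapMatrix_apply]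
  rw [← Matrix.charpoly_map]
  exact Matrix.charpoly_toLin _ _

end Rep

section Core

variable {L : Type*} [AddCommGroup L] [Module.Free ℤ L] [Module.Finite ℤ L]
variable {ι : Type*} (T : ι → L →ₗ[ℤ] L)
variable {O C k : Type*} [CommRing O] [CommRing C] [Field k] (j : O →+* C) (φ : O →+* k)
variable (a : ι → O) (Λ : AddSubgroup (C ⊗[ℤ] L)) (ω : C ⊗[ℤ] L)

/-- the algebra of pairs `(X, β)` with `X Λ ⊆ Λ`, `X ω ≡ β ω mod Λ`, `X` in the algebra generated
by the `T i`. -/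
def a5c_pairs (hΛO : ∀ b : O, ∀ v ∈ Λ, j b • v ∈ Λ) :
    Subalgebra O (Matrix (Free.ChooseBasisIndex ℤ L) (Free.ChooseBasisIndex ℤ L) O × O) where
  carrier := {r | r.1 ∈ Algebra.adjoin O (Set.range fun i => a5c_mat L O (T i)) ∧
    (∀ v ∈ Λ, a5c_rep L j r.1 v ∈ Λ) ∧ a5c_rep L j r.1 ω - j r.2 • ω ∈ Λ}
  mul_mem' := by
    rintro r s ⟨hr1, hr2, hr3⟩ ⟨hs1, hs2, hs3⟩
    refine ⟨Subalgebra.mul_mem _ hr1 hs1, fun v hv => ?_, ?_⟩
    · rw [Prod.fst_mul, map_mul, Module.End.mul_apply]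
      exact hr2 _ (hs2 v hv)
    · rw [Prod.fst_mul, Prod.snd_mul, map_mul, map_mul, Module.End.mul_apply]
      have h1 : a5c_rep L j r.1 (a5c_rep L j s.1 ω) - (j r.2 * j s.2) • ω =
          a5c_rep L j r.1 (a5c_rep L j s.1 ω - j s.2 • ω) +
            j s.2 • (a5c_rep L j r.1 ω - j r.2 • ω) := by
        rw [map_sub, map_smul, smul_sub, smul_smul, mul_comm (j s.2)]
        abel
      rw [h1]
      exact Λ.add_mem (hr2 _ hs3) (hΛO _ _ hr3)
  one_mem' := by
    refine ⟨Subalgebra.one_mem _, fun v hv => ?_, ?_⟩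
    · rw [Prod.fst_one, map_one, Module.End.one_apply]
      exact hv
    · rw [Prod.fst_one, Prod.snd_one, map_one, map_one, Module.End.one_apply, one_smul, sub_self]
      exact Λ.zero_mem
  add_mem' := by
    rintro r s ⟨hr1, hr2, hr3⟩ ⟨hs1, hs2, hs3⟩
    refine ⟨Subalgebra.add_mem _ hr1 hs1, fun v hv => ?_, ?_⟩
    · rw [Prod.fst_add, map_add, LinearMap.add_apply]
      exact Λ.add_mem (hr2 v hv) (hs2 v hv)
    · rw [Prod.fst_add, Prod.snd_add, map_add, map_add, LinearMap.add_apply, add_smul]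
      have h1 : a5c_rep L j r.1 ω + a5c_rep L j s.1 ω - (j r.2 • ω + j s.2 • ω) =
          (a5c_rep L j r.1 ω - j r.2 • ω) + (a5c_rep L j s.1 ω - j s.2 • ω) := by abel
      rw [h1]
      exact Λ.add_mem hr3 hs3
  zero_mem' := by
    refine ⟨Subalgebra.zero_mem _, fun v _ => ?_, ?_⟩
    · rw [Prod.fst_zero, map_zero, LinearMap.zero_apply]
      exact Λ.zero_mem
    · rw [Prod.fst_zero, Prod.snd_zero, map_zero, map_zero, LinearMap.zero_apply, zero_smul,
        sub_self]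
      exact Λ.zero_mem
  algebraMap_mem' := by
    intro b
    refine ⟨Subalgebra.algebraMap_mem _ b, fun v hv => ?_, ?_⟩
    · rw [Prod.algebraMap_apply]
      simp only
      rw [a5c_rep_algebraMap, LinearMap.smul_apply, Module.End.one_apply]
      exact hΛO b v hv
    · rw [Prod.algebraMap_apply]
      simp only
      rw [a5c_rep_algebraMap, LinearMap.smul_apply, Module.End.one_apply, Algebra.algebraMap_self,
        RingHom.id_apply, sub_self]
      exact Λ.zero_mem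

theorem a5c_mem_pairs (hΛO : ∀ b : O, ∀ v ∈ Λ, j b • v ∈ Λ)
    (r : Matrix (Free.ChooseBasisIndex ℤ L) (Free.ChooseBasisIndex ℤ L) O × O) :
    r ∈ a5c_pairs T j Λ ω hΛO ↔
      r.1 ∈ Algebra.adjoin O (Set.range fun i => a5c_mat L O (T i)) ∧
        (∀ v ∈ Λ, a5c_rep L j r.1 v ∈ Λ) ∧ a5c_rep L j r.1 ω - j r.2 • ω ∈ Λ := Iff.rfl

/-- the generators belong to the algebra of pairs. -/
theorem a5c_gen_mem (hΛO : ∀ b : O, ∀ v ∈ Λ, j b • v ∈ Λ)
    (hΛT : ∀ i, ∀ v ∈ Λ, (T i).baseChange C v ∈ Λ)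
    (hω : ∀ i, (T i).baseChange C ω - j (a i) • ω ∈ Λ) (i : ι) :
    (a5c_mat L O (T i), a i) ∈ a5c_pairs T j Λ ω hΛO := by
  rw [a5c_mem_pairs]
  refine ⟨Algebra.subset_adjoin ⟨i, rfl⟩, fun v hv => ?_, ?_⟩
  · simp only
    rw [a5c_rep_mat]
    exact hΛT i v hv
  · simp only
    rw [a5c_rep_mat]
    exact hω i

/-- the algebra generated by the matrices of commuting endomorphisms is commutative. -/
theorem a5c_adjoin_comm (hT : ∀ i i', T i ∘ₗ T i' = T i' ∘ₗ T i)
    {X Y : Matrix (Free.ChooseBasisIndex ℤ L) (Free.ChooseBasisIndex ℤ L) O}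
    (hX : X ∈ Algebra.adjoin O (Set.range fun i => a5c_mat L O (T i)))
    (hY : Y ∈ Algebra.adjoin O (Set.range fun i => a5c_mat L O (T i))) : X * Y = Y * X := by
  classical
  have hgen : ∀ i i', a5c_mat L O (T i) * a5c_mat L O (T i') =
      a5c_mat L O (T i') * a5c_mat L O (T i) := by
    have e : ∀ f g : L →ₗ[ℤ] L, a5c_mat L O (f ∘ₗ g) = a5c_mat L O f * a5c_mat L O g := by
      intro f g
      unfold a5c_mat
      rw [LinearMap.toMatrix_comp (Free.chooseBasis ℤ L) (Free.chooseBasis ℤ L)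
        (Free.chooseBasis ℤ L), Matrix.map_mul]
    intro i i'
    rw [← e, ← e, hT]
  have h1 : ∀ i, Commute X (a5c_mat L O (T i)) := by
    intro i
    refine (Algebra.commute_of_mem_adjoin_of_forall_mem_commute hX ?_).symm
    rintro _ ⟨i', rfl⟩
    exact hgen i i'
  refine Algebra.commute_of_mem_adjoin_of_forall_mem_commute hY ?_
  rintro _ ⟨i, rfl⟩
  exact h1 i

/-- **Cayley-Hamilton**: for a pair `(X, β)` the scalar `φ β` is an eigenvalue of `X mod φ`. -/
theorem a5c_pairs_eigen (hΛO : ∀ b : O, ∀ v ∈ Λ, j b • v ∈ Λ)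
    (hnd : ∀ b : O, j b • ω ∈ Λ → φ b = 0)
    {r : Matrix (Free.ChooseBasisIndex ℤ L) (Free.ChooseBasisIndex ℤ L) O × O}
    (hr : r ∈ a5c_pairs T j Λ ω hΛO) :
    ∃ w : k ⊗[ℤ] L, w ≠ 0 ∧ a5c_rep L φ r.1 w = φ r.2 • w := by
  classical
  -- the pair `(P(X), P(β))`, `P` the characteristic polynomial of `X`
  have h1 : aeval r r.1.charpoly ∈ a5c_pairs T j Λ ω hΛO := by
    have := (aeval (⟨r, hr⟩ : a5c_pairs T j Λ ω hΛO) r.1.charpoly).2
    rwa [Polynomial.aeval_subalgebra_coe] at this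
  rw [Polynomial.aeval_prod_apply, Matrix.aeval_self_charpoly] at h1
  have h2 := ((a5c_mem_pairs T j Λ ω hΛO _).mp h1).2.2
  simp only at h2
  rw [map_zero, LinearMap.zero_apply, zero_sub] at h2
  have h3 : φ (aeval r.2 r.1.charpoly) = 0 := hnd _ (by simpa using Λ.neg_mem h2)
  have h4 : (LinearMap.charpoly (a5c_rep L φ r.1)).IsRoot (φ r.2) := by
    rw [a5c_rep_charpoly, Polynomial.IsRoot.def, Polynomial.eval_map,
      Polynomial.eval₂_at_apply]
    rw [Polynomial.coe_aeval_eq_eval] at h3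
    exact h3
  have h5 := (Module.End.hasEigenvalue_iff_isRoot_charpoly _ _).mpr h4
  obtain ⟨w, hw⟩ := h5.exists_hasEigenvector
  exact ⟨w, hw.2, Module.End.mem_eigenspace_iff.mp hw.1⟩

/-- **the commutative core** of the reduction lemma. -/
theorem a5c_exists_eigenvector_comm (hT : ∀ i i', T i ∘ₗ T i' = T i' ∘ₗ T i)
    (hφ : Function.Surjective φ)
    (hΛT : ∀ i, ∀ v ∈ Λ, (T i).baseChange C v ∈ Λ)
    (hΛO : ∀ b : O, ∀ v ∈ Λ, j b • v ∈ Λ)
    (hω : ∀ i, (T i).baseChange C ω - j (a i) • ω ∈ Λ)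
    (hnd : ∀ b : O, j b • ω ∈ Λ → φ b = 0) :
    ∃ x : k ⊗[ℤ] L, x ≠ 0 ∧ ∀ i, (T i).baseChange k x = φ (a i) • x := by
  classical
  -- the image of the algebra of pairs
  let R : Subalgebra k (Module.End k (k ⊗[ℤ] L) × k) :=
    { carrier := {s | ∃ r ∈ a5c_pairs T j Λ ω hΛO, s = (a5c_rep L φ r.1, φ r.2)}
      mul_mem' := by
        rintro _ _ ⟨r, hr, rfl⟩ ⟨r', hr', rfl⟩
        exact ⟨r * r', Subalgebra.mul_mem _ hr hr', Prod.ext (by simp) (by simp)⟩
      one_mem' := ⟨1, Subalgebra.one_mem _, Prod.ext (by simp) (by simp)⟩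
      add_mem' := by
        rintro _ _ ⟨r, hr, rfl⟩ ⟨r', hr', rfl⟩
        exact ⟨r + r', Subalgebra.add_mem _ hr hr', Prod.ext (by simp) (by simp)⟩
      zero_mem' := ⟨0, Subalgebra.zero_mem _, Prod.ext (by simp) (by simp)⟩
      algebraMap_mem' := by
        intro c
        obtain ⟨b, rfl⟩ := hφ c
        refine ⟨algebraMap O _ b, Subalgebra.algebraMap_mem _ b, ?_⟩
        rw [Prod.algebraMap_apply, Prod.algebraMap_apply]
        simp only
        rw [a5c_rep_algebraMap, Algebra.algebraMap_self, RingHom.id_apply,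
          Algebra.algebraMap_self, RingHom.id_apply, Algebra.algebraMap_eq_smul_one] }
  have hcomm : ∀ r ∈ R, ∀ r' ∈ R, r.1 * r'.1 = r'.1 * r.1 := by
    rintro _ ⟨r, hr, rfl⟩ _ ⟨r', hr', rfl⟩
    simp only
    rw [← map_mul, ← map_mul,
      a5c_adjoin_comm T hT ((a5c_mem_pairs T j Λ ω hΛO _).mp hr).1
        ((a5c_mem_pairs T j Λ ω hΛO _).mp hr').1]
  have heig : ∀ r ∈ R, ∃ w : k ⊗[ℤ] L, w ≠ 0 ∧ r.1 w = r.2 • w := by
    rintro _ ⟨r, hr, rfl⟩
    exact a5c_pairs_eigen T j φ Λ ω hΛO hnd hr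
  obtain ⟨w, hw0, hw⟩ := a5la_exists_common_eigenvector R hcomm heig
  refine ⟨w, hw0, fun i => ?_⟩
  have := hw _ ⟨_, a5c_gen_mem T j a Λ ω hΛO hΛT hω i, rfl⟩
  simp only at this
  rwa [a5c_rep_mat] at this

end Core

end Fermat.Agent.S48WA5
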