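/-
S48 (W) seat A5, part ALG-LC (pure algebra; helper87, statement and plan by helper21).

`L` a finite free `ℤ`-module with operators `T i`, `V ⊆ ℂ ⊗ L` a `T`-stable subspace on which the
`T i` commute.  `Lc` := the set of `x ∈ L` such that the `T i` commute on every word in the `T`'s
applied to `x`.  It is `T`-stable, the `T i` commute on it, it is saturated (so that `Lc → L` is
split and stays injective after every base change), and `V ⊆ ℂ ⊗ Lc` because `Lc` is cut out by
`ℤ`-linear equations (rationality trick: write `v = ∑ β_r ⊗ l_r` with the `β_r ∈ ℂ` linearly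
independent over `ℤ`; an integral linear equation satisfied by `v` is satisfied by every `l_r`).
-/
import Mathlib

set_option autoImplicit false

noncomputable section

namespace Fermat.Agent.S48WA5

open scoped TensorProduct

section Decomp

variable {L : Type*} [AddCommGroup L]

/-- Over a module `B` with a finite basis `β`, every element of `B ⊗ L` is `∑ β_r ⊗ l_r`. -/
theorem a5lc_exists_sum_tmul {B : Type*} [AddCommGroup B] {n : ℕ}
    (β : Module.Basis (Fin n) ℤ B) (w : B ⊗[ℤ] L) :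
    ∃ l : Fin n → L, w = ∑ r, β r ⊗ₜ[ℤ] l r := by
  induction w using TensorProduct.induction_on with
  | zero => exact ⟨0, by simp⟩
  | tmul a m =>
    refine ⟨fun r => (β.repr a r) • m, ?_⟩
    have h1 : ∀ r, β r ⊗ₜ[ℤ] ((β.repr a r) • m) = ((β.repr a r) • β r) ⊗ₜ[ℤ] m := fun r => by
      rw [TensorProduct.smul_tmul]
    simp only [h1]
    rw [← TensorProduct.sum_tmul, β.sum_repr a]
  | add x y hx hy =>
    obtain ⟨l₁, h₁⟩ := hx
    obtain ⟨l₂, h₂⟩ := hy
    refine ⟨l₁ + l₂, ?_⟩
    simp only [Pi.add_apply, TensorProduct.tmul_add, Finset.sum_add_distrib]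
    rw [← h₁, ← h₂]

/-- Every element of `ℂ ⊗ L` comes from `B ⊗ L` for a finitely generated subgroup `B` of `ℂ`. -/
theorem a5lc_exists_fg (v : ℂ ⊗[ℤ] L) :
    ∃ B : Submodule ℤ ℂ, B.FG ∧ v ∈ LinearMap.range (B.subtype.rTensor L) := by
  induction v using TensorProduct.induction_on with
  | zero => exact ⟨⊥, Submodule.fg_bot, Submodule.zero_mem _⟩
  | tmul a m =>
    refine ⟨Submodule.span ℤ {a}, Submodule.fg_span_singleton a,
      ⟨(⟨a, Submodule.mem_span_singleton_self a⟩ : Submodule.span ℤ {a}) ⊗ₜ[ℤ] m, ?_⟩⟩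
    rw [LinearMap.rTensor_tmul]
    rfl
  | add x y hx hy =>
    obtain ⟨B₁, hB₁, w₁, h₁⟩ := hx
    obtain ⟨B₂, hB₂, w₂, h₂⟩ := hy
    refine ⟨B₁ ⊔ B₂, hB₁.sup hB₂, ?_⟩
    have e₁ : B₁.subtype = (B₁ ⊔ B₂).subtype ∘ₗ Submodule.inclusion le_sup_left := rfl
    have e₂ : B₂.subtype = (B₁ ⊔ B₂).subtype ∘ₗ Submodule.inclusion le_sup_right := rfl
    refine Submodule.add_mem _ ?_ ?_
    · rw [← h₁, e₁, LinearMap.rTensor_comp]
      exact ⟨_, rfl⟩
    · rw [← h₂, e₂, LinearMap.rTensor_comp]
      exact ⟨_, rfl⟩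

/-- **Rationality trick, existence**: every element of `ℂ ⊗ L` is `∑ β_r ⊗ l_r` with `β_r ∈ ℂ`
linearly independent over `ℤ`. -/
theorem a5lc_exists_decomp (v : ℂ ⊗[ℤ] L) :
    ∃ (n : ℕ) (β : Fin n → ℂ) (l : Fin n → L), LinearIndependent ℤ β ∧
      v = ∑ r, β r ⊗ₜ[ℤ] l r := by
  obtain ⟨B, hB, w, hw⟩ := a5lc_exists_fg v
  have : Module.Finite ℤ B := Module.Finite.iff_fg.2 hB
  have : Module.Free ℤ B := inferInstance
  let β := Module.finBasis ℤ B
  obtain ⟨l, hl⟩ := a5lc_exists_sum_tmul β w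
  refine ⟨_, fun r => (β r : ℂ), l, ?_, ?_⟩
  · exact β.linearIndependent.map' B.subtype (Submodule.ker_subtype B)
  · rw [← hw, hl, map_sum]
    refine Finset.sum_congr rfl fun r _ => ?_
    rw [LinearMap.rTensor_tmul]
    rfl

/-- **Rationality trick, uniqueness**: if the `β_r ∈ ℂ` are linearly independent over `ℤ` and
`∑ β_r ⊗ l_r = 0` in `ℂ ⊗ L` (`L` flat), then all `l_r` vanish. -/
theorem a5lc_eq_zero_of_sum_tmul [Module.Flat ℤ L] {n : ℕ} {β : Fin n → ℂ}
    (hβ : LinearIndependent ℤ β) (l : Fin n → L) (h : ∑ r, β r ⊗ₜ[ℤ] l r = 0) (r₀ : Fin n) :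
    l r₀ = 0 := by
  classical
  have hinj : Function.Injective ((Finsupp.linearCombination ℤ β).rTensor L) :=
    Module.Flat.rTensor_preserves_injective_linearMap _ hβ
  set z : (Fin n →₀ ℤ) ⊗[ℤ] L := ∑ r, (Finsupp.single r (1 : ℤ)) ⊗ₜ[ℤ] l r with hz
  have hz0 : z = 0 := by
    apply hinj
    rw [map_zero, hz, map_sum, ← h]
    refine Finset.sum_congr rfl fun r _ => ?_
    rw [LinearMap.rTensor_tmul, Finsupp.linearCombination_single, one_smul]
  have h2 : (TensorProduct.finsuppScalarLeft ℤ L (Fin n) z) r₀ = l r₀ := by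
    rw [hz, map_sum, Finsupp.finsetSum_apply]
    simp only [TensorProduct.finsuppScalarLeft_apply_tmul_apply]
    rw [Finset.sum_eq_single r₀]
    · rw [Finsupp.single_eq_same, one_smul]
    · intro r _ hr
      rw [Finsupp.single_eq_of_ne hr.symm, zero_smul]
    · intro hr
      exact absurd (Finset.mem_univ r₀) hr
  rw [← h2, hz0, map_zero]
  rfl

end Decomp

section Main

variable {L : Type*} [AddCommGroup L] {ι : Type*} (T : ι → L →ₗ[ℤ] L)

/-- The word in the operators `T`. -/
def a5lcWord (w : List ι) : Module.End ℤ L := (w.map T).prod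

theorem a5lcWord_nil : a5lcWord T [] = 1 := rfl

theorem a5lcWord_cons (m : ι) (w : List ι) : a5lcWord T (m :: w) = T m * a5lcWord T w := by
  unfold a5lcWord
  rw [List.map_cons, List.prod_cons]

theorem a5lcWord_append_singleton (w : List ι) (m : ι) :
    a5lcWord T (w ++ [m]) = a5lcWord T w * T m := by
  unfold a5lcWord
  rw [List.map_append, List.prod_append, List.map_singleton, List.prod_singleton]

/-- The commutator equation attached to a word and two indices. -/
def a5lcEq (w : List ι) (i j : ι) : Module.End ℤ L :=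
  T i * (T j * a5lcWord T w) - T j * (T i * a5lcWord T w)

theorem a5lcEq_apply (w : List ι) (i j : ι) (x : L) :
    a5lcEq T w i j x = T i (T j (a5lcWord T w x)) - T j (T i (a5lcWord T w x)) := rfl

/-- The largest `T`-stable subgroup on which the `T i` commute. -/
def a5lcSub : Submodule ℤ L where
  carrier := {x | ∀ (w : List ι) (i j : ι), a5lcEq T w i j x = 0}
  add_mem' := fun {x y} hx hy w i j => by rw [map_add, hx w i j, hy w i j, add_zero]
  zero_mem' := fun w i j => map_zero _
  smul_mem' := fun c x hx w i j => by rw [map_smul, hx w i j, smul_zero]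

theorem mem_a5lcSub {x : L} :
    x ∈ a5lcSub T ↔ ∀ (w : List ι) (i j : ι), a5lcEq T w i j x = 0 := Iff.rfl

theorem a5lcSub_stable (m : ι) {x : L} (hx : x ∈ a5lcSub T) : T m x ∈ a5lcSub T := by
  intro w i j
  have h := hx (w ++ [m]) i j
  rw [a5lcEq_apply, a5lcWord_append_singleton] at h
  rw [a5lcEq_apply]
  exact h

theorem a5lcSub_comm (i j : ι) {x : L} (hx : x ∈ a5lcSub T) : T i (T j x) = T j (T i x) := by
  have h := hx [] i j
  rw [a5lcEq_apply, a5lcWord_nil] at h
  exact sub_eq_zero.1 h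

/-- `Lc` is saturated. -/
theorem a5lcSub_saturated [Module.IsTorsionFree ℤ L] {n : ℤ} (hn : n ≠ 0) {x : L}
    (hx : n • x ∈ a5lcSub T) : x ∈ a5lcSub T := by
  intro w i j
  have h := hx w i j
  rw [map_smul] at h
  rcases smul_eq_zero.1 h with h0 | h0
  · exact absurd h0 hn
  · exact h0

/-- The inclusion of a saturated submodule of a finite free `ℤ`-module stays injective after
every base change. -/
theorem a5lc_baseChange_injective [Module.Free ℤ L] [Module.Finite ℤ L] (N : Submodule ℤ L)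
    (hsat : ∀ (n : ℤ), n ≠ 0 → ∀ x : L, n • x ∈ N → x ∈ N)
    (k : Type*) [CommRing k] : Function.Injective (N.subtype.baseChange k) := by
  have : Module.IsTorsionFree ℤ (L ⧸ N) := by
    refine Module.IsTorsionFree.of_smul_eq_zero fun n q h => ?_
    by_cases hn : n = 0
    · exact Or.inl hn
    · right
      obtain ⟨x, rfl⟩ := Submodule.Quotient.mk_surjective N q
      rw [← Submodule.Quotient.mk_smul, Submodule.Quotient.mk_eq_zero] at h
      rw [Submodule.Quotient.mk_eq_zero]
      exact hsat n hn x h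
  have : Module.Free ℤ (L ⧸ N) := inferInstance
  obtain ⟨s, hs⟩ := Module.projective_lifting_property N.mkQ
    (LinearMap.id : (L ⧸ N) →ₗ[ℤ] (L ⧸ N)) (Submodule.mkQ_surjective N)
  have hmem : ∀ x : L, (LinearMap.id - s ∘ₗ N.mkQ : L →ₗ[ℤ] L) x ∈ N := by
    intro x
    rw [← Submodule.Quotient.mk_eq_zero, LinearMap.sub_apply, Submodule.Quotient.mk_sub]
    have h1 : N.mkQ (s (N.mkQ x)) = N.mkQ x := by
      have := LinearMap.congr_fun hs (N.mkQ x)
      simpa using this
    rw [LinearMap.comp_apply, LinearMap.id_apply]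
    exact sub_eq_zero.2 h1.symm
  let r : L →ₗ[ℤ] N := LinearMap.codRestrict N (LinearMap.id - s ∘ₗ N.mkQ) hmem
  have hr : r ∘ₗ N.subtype = LinearMap.id := by
    ext x
    have h0 : N.mkQ (x : L) = 0 := (Submodule.Quotient.mk_eq_zero N).2 x.2
    simp [r, h0]
  have hleft : Function.LeftInverse (r.baseChange k) (N.subtype.baseChange k) := by
    intro y
    rw [← LinearMap.comp_apply, ← LinearMap.baseChange_comp, hr, LinearMap.baseChange_id,
      LinearMap.id_apply]
  exact hleft.injective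

theorem a5lc_exists_commuting_sublattice
    {L : Type*} [AddCommGroup L] [Module.Free ℤ L] [Module.Finite ℤ L]
    {ι : Type*} (T : ι → L →ₗ[ℤ] L)
    (V : Submodule ℂ (ℂ ⊗[ℤ] L))
    (hVT : ∀ i, ∀ v ∈ V, (T i).baseChange ℂ v ∈ V)
    (hVc : ∀ i j, ∀ v ∈ V, (T i).baseChange ℂ ((T j).baseChange ℂ v) =
      (T j).baseChange ℂ ((T i).baseChange ℂ v))
    (k : Type*) [Field k] :
    ∃ Lc : Submodule ℤ L,
      (∀ i, ∀ x ∈ Lc, T i x ∈ Lc) ∧
      (∀ i j, ∀ x ∈ Lc, T i (T j x) = T j (T i x)) ∧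
      (∀ v ∈ V, v ∈ LinearMap.range (Lc.subtype.baseChange ℂ)) ∧
      Function.Injective (Lc.subtype.baseChange k) := by
  have : Module.IsTorsionFree ℤ L := inferInstance
  refine ⟨a5lcSub T, fun i x hx => a5lcSub_stable T i hx, fun i j x hx => a5lcSub_comm T i j hx,
    ?_, a5lc_baseChange_injective (a5lcSub T)
      (fun n hn x hx => a5lcSub_saturated T hn hx) k⟩
  intro v hv
  -- words preserve `V`
  have hword : ∀ w : List ι, (a5lcWord T w).baseChange ℂ v ∈ V := by
    intro w
    induction w with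
    | nil =>
      rw [a5lcWord_nil, LinearMap.baseChange_one]
      exact hv
    | cons m w ih =>
      rw [a5lcWord_cons, LinearMap.baseChange_mul]
      exact hVT m _ ih
  -- the equations hold at `v`
  have heq : ∀ (w : List ι) (i j : ι), (a5lcEq T w i j).baseChange ℂ v = 0 := by
    intro w i j
    unfold a5lcEq
    rw [LinearMap.baseChange_sub, LinearMap.baseChange_mul, LinearMap.baseChange_mul,
      LinearMap.baseChange_mul, LinearMap.baseChange_mul, LinearMap.sub_apply]
    exact sub_eq_zero.2 (hVc i j _ (hword w))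
  -- decomposition
  obtain ⟨n, β, l, hβ, hvl⟩ := a5lc_exists_decomp v
  have hl : ∀ r, l r ∈ a5lcSub T := by
    intro r w i j
    refine a5lc_eq_zero_of_sum_tmul hβ (fun r => a5lcEq T w i j (l r)) ?_ r
    have h1 := heq w i j
    rw [hvl, map_sum] at h1
    rw [← h1]
    refine Finset.sum_congr rfl fun r _ => ?_
    rw [LinearMap.baseChange_tmul]
  rw [hvl]
  refine Submodule.sum_mem _ fun r _ => ?_
  refine ⟨β r ⊗ₜ[ℤ] (⟨l r, hl r⟩ : a5lcSub T), ?_⟩
  rw [LinearMap.baseChange_tmul]
  rfl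

end Main

end Fermat.Agent.S48WA5
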