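/-
S48 wall (W), seat A5 (helper21), part ALG: the abstract reduction lemma.

`a5_exists_modEigenvector`: `L` a finite free `ℤ`-module with endomorphisms `T i` (NOT assumed to
commute); `V ⊆ ℂ ⊗ L` a `T`-stable subspace on which the `T i` commute; `O → ℂ`, `φ : O → k` with
maximal kernel; `Λ ⊆ ℂ ⊗ L` a subgroup stable under the `T i` and `O`; `ω ∈ V` with
`T i ω ≡ a i ω mod Λ`, and `b ω ∈ Λ ⟹ φ b = 0`.  Then `k ⊗ L` contains a nonzero common
eigenvector of the `T i` with eigenvalues `φ (a i)`.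
-/
import Mathlib
import Fermat.Agent.S48.W.A5.AlgCore
import Fermat.Agent.S48.W.A5.AlgLc

set_option autoImplicit false

noncomputable section

namespace Fermat.Agent.S48WA5

open scoped TensorProduct
open Module

section Ext

variable {L : Type*} [AddCommGroup L] {κ k : Type*} [CommRing κ] [CommRing k] (ψ : κ →+* k)

/-- change of coefficients `κ ⊗ L → k ⊗ L` along a ring homomorphism. -/
def a5_coeff (L : Type*) [AddCommGroup L] {κ k : Type*} [CommRing κ] [CommRing k] (ψ : κ →+* k) :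
    κ ⊗[ℤ] L →ₗ[ℤ] k ⊗[ℤ] L :=
  LinearMap.rTensor L ψ.toAddMonoidHom.toIntLinearMap

@[simp] theorem a5_coeff_tmul (c : κ) (l : L) : a5_coeff L ψ (c ⊗ₜ[ℤ] l) = ψ c ⊗ₜ[ℤ] l := rfl

theorem a5_coeff_smul (c : κ) (x : κ ⊗[ℤ] L) : a5_coeff L ψ (c • x) = ψ c • a5_coeff L ψ x := by
  induction x using TensorProduct.induction_on with
  | zero => simp
  | tmul c' l => simp [TensorProduct.smul_tmul', map_mul]
  | add x y hx hy => rw [smul_add, map_add, hx, hy, map_add, smul_add]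

theorem a5_coeff_baseChange (T : L →ₗ[ℤ] L) (x : κ ⊗[ℤ] L) :
    a5_coeff L ψ (T.baseChange κ x) = T.baseChange k (a5_coeff L ψ x) := by
  induction x using TensorProduct.induction_on with
  | zero => simp
  | tmul c' l => simp
  | add x y hx hy => simp only [map_add, hx, hy]

theorem a5_coeff_injective [Module.Flat ℤ L] (hψ : Function.Injective ψ) :
    Function.Injective (a5_coeff L ψ) :=
  Module.Flat.rTensor_preserves_injective_linearMap _ hψ

end Ext

section Comm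

variable {L : Type*} [AddCommGroup L] [Module.Free ℤ L] [Module.Finite ℤ L]
variable {ι : Type*} (T : ι → L →ₗ[ℤ] L)
variable {O C k : Type*} [CommRing O] [CommRing C] [Field k] (j : O →+* C) (φ : O →+* k)
variable (a : ι → O) (Λ : AddSubgroup (C ⊗[ℤ] L)) (ω : C ⊗[ℤ] L)

/-- the commutative case, `ker φ` maximal. -/
theorem a5_exists_eigenvector_comm (hT : ∀ i i', T i ∘ₗ T i' = T i' ∘ₗ T i)
    (hφ : (RingHom.ker φ).IsMaximal)
    (hΛT : ∀ i, ∀ v ∈ Λ, (T i).baseChange C v ∈ Λ)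
    (hΛO : ∀ b : O, ∀ v ∈ Λ, j b • v ∈ Λ)
    (hω : ∀ i, (T i).baseChange C ω - j (a i) • ω ∈ Λ)
    (hnd : ∀ b : O, j b • ω ∈ Λ → φ b = 0) :
    ∃ x : k ⊗[ℤ] L, x ≠ 0 ∧ ∀ i, (T i).baseChange k x = φ (a i) • x := by
  let _ : Field (O ⧸ RingHom.ker φ) := Ideal.Quotient.field _
  obtain ⟨x, hx0, hx⟩ := a5c_exists_eigenvector_comm T j (Ideal.Quotient.mk (RingHom.ker φ)) a Λ ω
    hT Ideal.Quotient.mk_surjective hΛT hΛO hω (fun b hb => by
      rw [Ideal.Quotient.eq_zero_iff_mem, RingHom.mem_ker]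
      exact hnd b hb)
  refine ⟨a5_coeff L φ.kerLift x, ?_, fun i => ?_⟩
  · intro h0
    apply hx0
    apply a5_coeff_injective φ.kerLift (RingHom.kerLift_injective φ)
    rw [h0, map_zero]
  · rw [← a5_coeff_baseChange, hx i, a5_coeff_smul, RingHom.kerLift_mk]

end Comm

section General

variable {L : Type*} [AddCommGroup L] [Module.Free ℤ L] [Module.Finite ℤ L]
variable {ι : Type*} (T : ι → L →ₗ[ℤ] L)
variable {O k : Type*} [CommRing O] [Field k] (j : O →+* ℂ) (φ : O →+* k)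
variable (a : ι → O) (V : Submodule ℂ (ℂ ⊗[ℤ] L)) (Λ : AddSubgroup (ℂ ⊗[ℤ] L)) (ω : ℂ ⊗[ℤ] L)

omit [Module.Free ℤ L] [Module.Finite ℤ L] in
/-- naturality of base change for a restricted endomorphism. -/
theorem a5_baseChange_restrict (S : Type*) [CommRing S] (T₀ : L →ₗ[ℤ] L) (Lc : Submodule ℤ L)
    (h : ∀ x ∈ Lc, T₀ x ∈ Lc) (v : S ⊗[ℤ] Lc) :
    Lc.subtype.baseChange S ((T₀.restrict h).baseChange S v) =
      T₀.baseChange S (Lc.subtype.baseChange S v) := by
  have h1 : Lc.subtype ∘ₗ T₀.restrict h = T₀ ∘ₗ Lc.subtype := by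
    ext x
    simp
  have h2 := congrArg (LinearMap.baseChange S) h1
  rw [LinearMap.baseChange_comp, LinearMap.baseChange_comp] at h2
  exact DFunLike.congr_fun h2 v

/-- **the abstract reduction lemma** (S48 (W), A5). -/
theorem a5_exists_modEigenvector
    (hφ : (RingHom.ker φ).IsMaximal)
    (hVT : ∀ i, ∀ v ∈ V, (T i).baseChange ℂ v ∈ V)
    (hVc : ∀ i i', ∀ v ∈ V, (T i).baseChange ℂ ((T i').baseChange ℂ v) =
      (T i').baseChange ℂ ((T i).baseChange ℂ v))
    (hΛT : ∀ i, ∀ v ∈ Λ, (T i).baseChange ℂ v ∈ Λ)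
    (hΛO : ∀ b : O, ∀ v ∈ Λ, j b • v ∈ Λ)
    (hωV : ω ∈ V)
    (hω : ∀ i, (T i).baseChange ℂ ω - j (a i) • ω ∈ Λ)
    (hnd : ∀ b : O, j b • ω ∈ Λ → φ b = 0) :
    ∃ x : k ⊗[ℤ] L, x ≠ 0 ∧ ∀ i, (T i).baseChange k x = φ (a i) • x := by
  obtain ⟨Lc, hstab, hcomm, hVLc, hinj⟩ := a5lc_exists_commuting_sublattice T V hVT hVc k
  -- the restricted operators
  set T' : ι → Lc →ₗ[ℤ] Lc := fun i => (T i).restrict (hstab i) with hT'
  have hT'comm : ∀ i i', T' i ∘ₗ T' i' = T' i' ∘ₗ T' i := by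
    intro i i'
    ext x
    simp only [hT', LinearMap.comp_apply, LinearMap.restrict_apply]
    exact hcomm i i' x x.2
  have hnatC : ∀ (i : ι) (v : ℂ ⊗[ℤ] Lc),
      Lc.subtype.baseChange ℂ ((T' i).baseChange ℂ v) =
        (T i).baseChange ℂ (Lc.subtype.baseChange ℂ v) := fun i v =>
    a5_baseChange_restrict ℂ (T i) Lc (hstab i) v
  have hnatk : ∀ (i : ι) (v : k ⊗[ℤ] Lc),
      Lc.subtype.baseChange k ((T' i).baseChange k v) =
        (T i).baseChange k (Lc.subtype.baseChange k v) := fun i v =>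
    a5_baseChange_restrict k (T i) Lc (hstab i) v
  obtain ⟨ω', hω'⟩ := hVLc ω hωV
  set inclC : ℂ ⊗[ℤ] Lc →ₗ[ℂ] ℂ ⊗[ℤ] L := Lc.subtype.baseChange ℂ with hinclC
  obtain ⟨x, hx0, hx⟩ := a5_exists_eigenvector_comm T' j φ a (Λ.comap inclC.toAddMonoidHom) ω'
    hT'comm hφ
    (fun i v hv => by
      rw [AddSubgroup.mem_comap] at hv ⊢
      have := hnatC i v
      simp only [LinearMap.toAddMonoidHom_coe] at hv ⊢
      rw [hinclC, this]
      exact hΛT i _ hv)
    (fun b v hv => by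
      rw [AddSubgroup.mem_comap] at hv ⊢
      simp only [LinearMap.toAddMonoidHom_coe] at hv ⊢
      rw [map_smul]
      exact hΛO b _ hv)
    (fun i => by
      rw [AddSubgroup.mem_comap]
      simp only [LinearMap.toAddMonoidHom_coe]
      rw [map_sub, map_smul, hinclC, hnatC i ω', hω']
      exact hω i)
    (fun b hb => by
      rw [AddSubgroup.mem_comap] at hb
      simp only [LinearMap.toAddMonoidHom_coe] at hb
      rw [map_smul, hinclC, hω'] at hb
      exact hnd b hb)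
  refine ⟨Lc.subtype.baseChange k x, ?_, fun i => ?_⟩
  · intro h0
    apply hx0
    apply hinj
    rw [h0, map_zero]
  · rw [← hnatk i x, hx i, map_smul]

end General

end Fermat.Agent.S48WA5
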