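/-
S48 wall (W), seat A5 (owner helper21), part HECKE-PER (helper67).

Periods of `T_p h` (H1, `PrimOne.hecke`) and of `h ∣ σ` (H2, `PrimOne.diamond`, proved in
`HeckePeriodCore.lean`): exact statements of helper21's stub.
-/
import Mathlib
import Fermat.Agent.S48.W.A5.HeckePeriodAll
import Fermat.Agent.S48.W.A5.Forms

set_option autoImplicit false

noncomputable section

namespace Fermat.Agent.S48WA5

open CongruenceSubgroup Matrix.SpecialLinearGroup ModularCurve.Period UpperHalfPlane Filter
open scoped MatrixGroups Topology Manifold ModularForm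
open P2MW.S_ModularForm_heckeT_slash_eq_self_of_mem_Gamma0.ModularForm.HeckeSlashInvariance

variable {M : ℕ} [NeZero M] {h F : ℍ → ℂ} {p : ℕ} [Fact p.Prime]

/-- (H1) -/
theorem PrimOne.hecke (hpM : Nat.Coprime p M) (hF : PrimOne M h F) :
    ∃ hG : PrimOne M (heckeFunOne M hpM h) (fun z => ∑ x : OnePoint (ZMod p),
        F (heckeRepOne M hpM x • z)),
      hG.equiv.periodHom = heckeAllOne hpM ℂ hF.equiv.periodHom :=
  PrimOne.heckeAll hpM hF

/-- (H1), pointwise. -/
theorem PrimOne.hecke_period (hpM : Nat.Coprime p M) (hF : PrimOne M h F)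
    (hG : PrimOne M (heckeFunOne M hpM h) (fun z => ∑ x : OnePoint (ZMod p),
        F (heckeRepOne M hpM x • z))) (γ : Gamma1 M) :
    hG.equiv.periodHom (Additive.ofMul γ) =
      ∑ x : OnePoint (ZMod p), hF.equiv.periodHom (Additive.ofMul (cosetOne hpM γ x)) :=
  PrimOne.heckeCore_period hpM hF γ

end Fermat.Agent.S48WA5
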